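import Fermat.Agent.DS.Kum.An.HeckeProdOf
import Fermat.Agent.DS.Kum.Gamma1Reps

/-!
# PROGRAMME III (S48), block X1-KUM, leaf KUM-2f (helper9): the coset systems of `Γ₁(M)` are
rational of positive determinant; diamond operators as coset systems

* `CosetReps.single a w haw : CosetReps emb Unit` : the coset system with the single representative
  `w`, an element of the ambient group normalising `Γ₀` (inducing the automorphism `a`);
  `transfer_single` : its transfer is `φ ↦ φ ∘ a`;
* `leftMul_isRatPosOf`, `single_isRatPosOf`;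
* `diamondReps M δ` (`δ ∈ Γ₀(M)`) : the coset system of the diamond operator on `Γ₁(M)`;
  `transfer_diamondReps : (diamondReps M δ).transfer = diamondHom M A δ`;
* `T1Reps_isRatPosOf`, `T1StarReps_isRatPosOf`, `diamondReps_isRatPosOf`.
-/

set_option autoImplicit false
set_option linter.unusedSectionVars false

open UpperHalfPlane ModularForm CongruenceSubgroup Matrix.SpecialLinearGroup
open scoped MatrixGroups ModularForm Manifold

noncomputable section

namespace Fermat.Agent.DS.Kum

open Fermat.Agent.Jac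
open P2MW.S_ModularForm_heckeT_slash_eq_self_of_mem_Gamma0.ModularForm.HeckeSlashInvariance

/-! ### The coset system with a single representative -/

section Single

variable {Γ₀ G : Type*} [Group Γ₀] [Group G] {emb : Γ₀ →* G}

/-- The coset system with the single representative `w`, an element of the ambient group which
normalises `Γ₀` (inducing the automorphism `a`). -/
def _root_.Fermat.Agent.Jac.CosetReps.single (hemb : Function.Injective emb) (a : Γ₀ ≃* Γ₀)
    (w : G) (haw : ∀ γ, emb (a γ) = w * emb γ * w⁻¹) : CosetReps emb Unit where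
  rep _ := w
  emb_injective := hemb
  stable γ _ := ⟨a γ, (), by rw [haw]; group⟩
  distinct _ _ _ _ := rfl

@[simp] theorem single_rep (hemb : Function.Injective emb) (a : Γ₀ ≃* Γ₀) (w : G)
    (haw : ∀ γ, emb (a γ) = w * emb γ * w⁻¹) (i : Unit) :
    (CosetReps.single hemb a w haw).rep i = w := rfl

/-- The transfer of the single-representative system is `φ ↦ φ ∘ a`. -/
theorem transfer_single {A : Type*} [AddCommGroup A] (hemb : Function.Injective emb)
    (a : Γ₀ ≃* Γ₀) (w : G) (haw : ∀ γ, emb (a γ) = w * emb γ * w⁻¹) (φ : Additive Γ₀ →+ A) :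
    (CosetReps.single hemb a w haw).transfer φ = compAut a A φ := by
  refine AddMonoidHom.ext fun γ' => ?_
  obtain ⟨γ, rfl⟩ := Additive.ofMul.surjective γ'
  rw [(CosetReps.single hemb a w haw).transfer_apply_of_rel φ γ (fun _ => a γ) (fun _ => ())
    (fun _ => by rw [single_rep, haw]; group)]
  simp

end Single

/-! ### Rationality and positivity -/

section RatPos

variable {Γ : Subgroup SL(2, ℤ)} {ι : Type*}

theorem leftMul_isRatPosOf {D : CosetReps (embOf Γ) ι} (hD : D.IsRatPosOf) (a : ↥Γ ≃* ↥Γ)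
    (w : GL (Fin 2) ℝ) (haw : ∀ γ, embOf Γ (a γ) = w * embOf Γ γ * w⁻¹)
    (hw : 0 < w.det.val) (hr : w ∈ ratGL) : (D.leftMul a w haw).IsRatPosOf where
  pos i := by
    rw [leftMul_rep, map_mul, Units.val_mul]
    exact mul_pos hw (hD.pos i)
  rat i := by
    rw [leftMul_rep]
    exact ratGL.mul_mem hr (hD.rat i)

theorem single_isRatPosOf (a : ↥Γ ≃* ↥Γ)
    (w : GL (Fin 2) ℝ) (haw : ∀ γ, embOf Γ (a γ) = w * embOf Γ γ * w⁻¹)
    (hw : 0 < w.det.val) (hr : w ∈ ratGL) :
    (CosetReps.single (embOf_injective Γ) a w haw).IsRatPosOf where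
  pos _ := hw
  rat _ := hr

end RatPos

/-! ### The coset systems of `Γ₁(M)` -/

section GammaOne

variable (M : ℕ) {p : ℕ}

/-- **The coset system of the diamond operator** of `δ ∈ Γ₀(M)` on `Γ₁(M)`: the single
representative `δ`. -/
def diamondReps (δ : ↥(Gamma0 M)) : CosetReps (embOf (Gamma1 M)) Unit :=
  CosetReps.single (embOf_injective (Gamma1 M)) (conjGamma1 M δ) (mapGL ℝ (δ : SL(2, ℤ)))
    (embOf_conjGamma1 M δ)

@[simp] theorem diamondReps_rep (δ : ↥(Gamma0 M)) (i : Unit) :
    (diamondReps M δ).rep i = mapGL ℝ (δ : SL(2, ℤ)) := rfl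

theorem transfer_diamondReps {A : Type*} [AddCommGroup A] (δ : ↥(Gamma0 M))
    (φ : Additive ↥(Gamma1 M) →+ A) :
    (diamondReps M δ).transfer φ = diamondHom M A δ φ :=
  transfer_single _ _ _ _ φ

theorem diamondReps_isRatPosOf (δ : ↥(Gamma0 M)) : (diamondReps M δ).IsRatPosOf :=
  single_isRatPosOf _ _ _ (det_mapGL_pos _) (mapGL_mem_ratGL _)

theorem t1Rep_mem_ratGL (σ : SL(2, ℤ)) (x : OnePoint (ZMod p)) : t1Rep σ p x ∈ ratGL := by
  unfold t1Rep
  exact ratGL.mul_mem (mapGL_mem_ratGL _) (heckeRep_mem_ratGL p x)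

theorem det_t1Rep_pos (σ : SL(2, ℤ)) (x : OnePoint (ZMod p)) : 0 < (t1Rep σ p x).det.val := by
  unfold t1Rep
  rw [map_mul, Units.val_mul]
  exact mul_pos (det_mapGL_pos _) (det_heckeRep_pos p x)

theorem T1Reps_isRatPosOf (hp : p.Prime) (hpM : ¬ p ∣ M) (σ : ↥(Gamma0 M))
    (hσ : Gamma0Map M σ = (p : ZMod M)) : (T1Reps M hp hpM σ hσ).IsRatPosOf :=
  ⟨fun x => det_t1Rep_pos _ x, fun x => t1Rep_mem_ratGL _ x⟩

theorem T1StarReps_isRatPosOf (hp : p.Prime) (hpM : ¬ p ∣ M) (σ : ↥(Gamma0 M))
    (hσ : Gamma0Map M σ = (p : ZMod M)) : (T1StarReps M hp hpM σ hσ).IsRatPosOf :=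
  leftMul_isRatPosOf (T1Reps_isRatPosOf M hp hpM σ hσ) _ _ _ (det_mapGL_pos _)
    (mapGL_mem_ratGL _)

end GammaOne

end Fermat.Agent.DS.Kum
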