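import Fermat.Agent.DS.Kum.An.KappaHeckeOf
import Fermat.Agent.DS.Kum.An.RepsOne
import Fermat.Prelude.Def_AlgebraicCurve_BaseChangeGalois

/-!
# PROGRAMME III (S48), block X1-KUM, leaf KUM-2i (helper9): the Kummer homomorphism and the
automorphisms induced by matrices normalising `Γ` (diamond operators)

`Γ ≤ SL(2,ℤ)`, `w ∈ GL₂(ℝ)` rational of positive determinant normalising `Γ` (inducing the
automorphism `a` of `Γ`), `σF : F ≃ₐ[ℂ] F` an automorphism of the function field with
`θ (σF y) = (θ y) ∘ w`.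

* `semilinear_smul_divOf` : `g • div y = div (g • y)` for a semilinear automorphism `g`;
* `heckeProdMerOf_single` : the Hecke product of the single-representative system is `· ∘ w`;
* `kappaLamOf_single` : `κ (l ∘ a) = ofAlgAut σF • κ l` (Prelude action of `SemilinearAut` on
  `Pic0`);
* `kappaLamOf_diamondLam` : the instance for `Γ₁(M)`, `w = δ ∈ Γ₀(M)` with lower right entry
  `≡ d (mod M)`: `κ (diamondLam M d l) = ofAlgAut σF • κ l`.
-/

set_option autoImplicit false
set_option linter.unusedSectionVars false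

open UpperHalfPlane ModularForm CongruenceSubgroup Matrix.SpecialLinearGroup AlgebraicCurve

open scoped MatrixGroups Manifold

noncomputable section

namespace Fermat.Agent.DS.Kum

open Fermat.Agent.Jac Fermat.Agent.Red
open Fermat.Agent.X0 (HolH MerH)

/-- The action of a semilinear automorphism on principal divisors. -/
theorem semilinear_smul_divOf {K F : Type*} [Field K] [Field F] [Algebra K F]
    [HasPrincipalDivisors K F] (g : SemilinearAut K F) (y : F) :
    g • divOf K y = divOf K (g • y) := by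
  ext w
  rw [SemilinearAut.divisor_smul_apply, divOf_apply, divOf_apply]
  have h := SemilinearAut.ord_smul g (g⁻¹ • w) y
  rw [smul_inv_smul] at h
  exact h.symm

variable {Γ : Subgroup SL(2, ℤ)} {F : Type*} [Field F] [Algebra ℂ F]

/-- The Hecke product of the single-representative system is composition with `w`. -/
theorem heckeProdMerOf_single (a : ↥Γ ≃* ↥Γ) (w : GL (Fin 2) ℝ)
    (haw : ∀ γ, embOf Γ (a γ) = w * embOf Γ γ * w⁻¹) (G : MerH) :
    heckeProdMerOf (CosetReps.single (embOf_injective Γ) a w haw) G = merComp w G := by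
  rw [heckeProdMerOf_apply]
  simp

variable [HasPrincipalDivisors ℂ F]

/-- **The Kummer homomorphism and an automorphism induced by a normalising matrix.** -/
theorem kappaLamOf_single (R : ThetaData Γ F) (hD4 : HD4Of Γ R.θ) (a : ↥Γ ≃* ↥Γ)
    (w : GL (Fin 2) ℝ) (haw : ∀ γ, embOf Γ (a γ) = w * embOf Γ γ * w⁻¹)
    (hw : 0 < w.det.val) (hr : w ∈ ratGL) (σF : F ≃ₐ[ℂ] F)
    (hσ : ∀ y : F, R.θ (σF y) = merComp w (R.θ y))
    {m : ℕ} (hm : 0 < m) {ζ : ℂˣ} (hζ : IsPrimitiveRoot ζ m) (l l' : ↥(LamOf Γ))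
    (hl : (l' : Additive ↥Γ →+ ℤ) = compAut a ℤ (l : Additive ↥Γ →+ ℤ)) :
    kappaLamOf (kummerDataOf R hD4) (kummerDataOf_Good R hD4) hm hζ l' =
      SemilinearAut.ofAlgAut σF •
        kappaLamOf (kummerDataOf R hD4) (kummerDataOf_Good R hD4) hm hζ l := by
  set g : SemilinearAut ℂ F := SemilinearAut.ofAlgAut σF with hg
  refine kappaLamOf_of_eq_transfer R hD4 (single_isRatPosOf a w haw hw hr)
    (DistribSMul.toAddMonoidHom (Divisor ℂ F) g) (fun y => σF y)
    (fun y _ => ?_) (fun y _ => ?_) (DistribSMul.toAddMonoidHom (Pic0 ℂ F) g)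
    (fun E => ⟨SemilinearAut.smul_mem_degZero g E.2, ?_⟩) hm hζ l l' ?_
  · show g • divOf ℂ y = divOf ℂ (σF y)
    rw [semilinear_smul_divOf]
    rfl
  · rw [heckeProdMerOf_single, hσ]
  · show g • Pic0.mk E = _
    rw [SemilinearAut.pic0_smul_mk]
    rfl
  · rw [hl, transfer_single]

/-- **The Kummer homomorphism and the diamond operators of `Γ₁(M)`.**  If the automorphism `σF`
of the function field is realised by `· ∘ δ` (`δ ∈ Γ₀(M)` with lower right entry `≡ d`), then
`κ (⟨d⟩ l) = σF • κ l`. -/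
theorem kappaLamOf_diamondLam (M : ℕ) [NeZero M] (R : ThetaData (Gamma1 M) F)
    (hD4 : HD4Of (Gamma1 M) R.θ) (d : (ZMod M)ˣ) (δ : ↥(Gamma0 M))
    (hδ : Gamma0Map M δ = (d : ZMod M)) (σF : F ≃ₐ[ℂ] F)
    (hσ : ∀ y : F, R.θ (σF y) = merComp (mapGL ℝ (δ : SL(2, ℤ))) (R.θ y))
    {m : ℕ} (hm : 0 < m) {ζ : ℂˣ} (hζ : IsPrimitiveRoot ζ m) (l : ↥(LamOf (Gamma1 M))) :
    kappaLamOf (kummerDataOf R hD4) (kummerDataOf_Good R hD4) hm hζ (diamondLam M d l) =
      SemilinearAut.ofAlgAut σF •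
        kappaLamOf (kummerDataOf R hD4) (kummerDataOf_Good R hD4) hm hζ l :=
  kappaLamOf_single R hD4 (conjGamma1 M δ) (mapGL ℝ (δ : SL(2, ℤ))) (embOf_conjGamma1 M δ)
    (det_mapGL_pos _) (mapGL_mem_ratGL _) σF hσ hm hζ l (diamondLam M d l)
    (by rw [coe_diamondLam_apply, diamondUnit_eq M d δ hδ]; rfl)

end Fermat.Agent.DS.Kum
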