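import Fermat.Agent.DS.Kum.An.HThetaGen
import Fermat.Agent.DS.Kum.An.HThetaAut
import Fermat.Agent.Jac.HeckeRepsDecomp

/-!
# PROGRAMME III (S48), block X1-KUM, leaf KUM-2j (helper9): the Kummer homomorphism of `Γ₁(M)` and
the lattice operators `T1Lam`, `diamondLam` — instance wrappers

`R : ThetaData (Gamma1 M) F`, `hD4 : HD4Of (Gamma1 M) R.θ`, `κ = kappaLamOf (kummerDataOf R hD4) …`.

* `kappaLamOf_T1Lam` : if the Hecke product over `T1Reps M hp hpM σ hσ` realises the algebraic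
  correspondence `(T, Nm, Tb)` then `κ (T1Lam l) = Tb (κ l)`;
* `kappaLamOf_T1Lam_star` : if the Hecke product over `T1StarReps M hp hpM σ hσ` (the double coset
  `Γ₁(M) diag(p,1) Γ₁(M)`) does, then `κ (T1Lam (diamondLam ⟨p⟩⁻¹ l)) = Tb (κ l)`;
* `exists_decomp_inv_mul_heckeMatrix`, `T1StarReps_rep_mem_doubleCoset` : every representative of `T1StarReps`
  lies in `Γ₁(M) diag(p,1) Γ₁(M)`;
* `kappaLamOf_T1Lam_star_correspondence` : the second one with `(T, Nm, Tb)` the Prelude's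
  correspondence of two degeneracy maps `α β : F →ₐ[ℂ] L` realised by `id` and `· ∘ diag(p,1)`;
* (`kappaLamOf_diamondLam` is in `An/HThetaAut.lean`.)
-/

set_option autoImplicit false
set_option linter.unusedSectionVars false
set_option linter.style.haveILetI false

open UpperHalfPlane ModularForm CongruenceSubgroup Matrix.SpecialLinearGroup AlgebraicCurve

open scoped MatrixGroups Manifold

noncomputable section

namespace Fermat.Agent.DS.Kum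

open Fermat.Agent.Jac Fermat.Agent.Red
open Fermat.Agent.X0 (HolH MerH)
open P2MW.S_ModularForm_heckeT_slash_eq_self_of_mem_Gamma0.ModularForm.HeckeSlashInvariance

variable (M : ℕ) [NeZero M] {p : ℕ} [NeZero p] {F : Type*} [Field F] [Algebra ℂ F]
  [HasPrincipalDivisors ℂ F]

/-- `κ (T_p l) = Tb (κ l)` when the Hecke product over `T1Reps` realises `(T, Nm, Tb)`. -/
theorem kappaLamOf_T1Lam (R : ThetaData (Gamma1 M) F) (hD4 : HD4Of (Gamma1 M) R.θ)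
    (hp : p.Prime) (hpM : ¬ p ∣ M) (σ : ↥(Gamma0 M)) (hσ : Gamma0Map M σ = (p : ZMod M))
    (T : Divisor ℂ F →+ Divisor ℂ F) (Nm : F → F)
    (hT : ∀ y : F, y ≠ 0 → T (divOf ℂ y) = divOf ℂ (Nm y))
    (hH : HThetaOf R Nm (T1Reps M hp hpM σ hσ)) (Tb : Pic0 ℂ F →+ Pic0 ℂ F)
    (hTb : ∀ E : Divisor.degZero (K := ℂ) (F := F), ∃ h, Tb (Pic0.mk E) = Pic0.mk ⟨T E, h⟩)
    {m : ℕ} (hm : 0 < m) {ζ : ℂˣ} (hζ : IsPrimitiveRoot ζ m) (l : ↥(LamOf (Gamma1 M))) :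
    kappaLamOf (kummerDataOf R hD4) (kummerDataOf_Good R hD4) hm hζ (T1Lam M hp hpM l) =
      Tb (kappaLamOf (kummerDataOf R hD4) (kummerDataOf_Good R hD4) hm hζ l) :=
  kappaLamOf_of_eq_transfer R hD4 (T1Reps_isRatPosOf M hp hpM σ hσ) T Nm hT hH Tb hTb hm hζ l _
    (by rw [coe_T1Lam_apply, hecke1_eq M hp hpM σ hσ])

/-- The transfer of `T1StarReps` on the lattice: `T_p ∘ ⟨p⟩⁻¹`. -/
theorem coe_T1Lam_diamondLam_inv (hp : p.Prime) (hpM : ¬ p ∣ M) (σ : ↥(Gamma0 M))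
    (hσ : Gamma0Map M σ = (p : ZMod M)) (l : ↥(LamOf (Gamma1 M))) :
    ((T1Lam M hp hpM (diamondLam M (primeUnit M hp hpM)⁻¹ l) : ↥(LamOf (Gamma1 M))) :
        Additive ↥(Gamma1 M) →+ ℤ) =
      (T1StarReps M hp hpM σ hσ).transfer (l : Additive ↥(Gamma1 M) →+ ℤ) := by
  rw [coe_T1Lam_apply, coe_diamondLam_apply, transfer_T1StarReps, hecke1_eq M hp hpM σ hσ]
  congr 1
  refine diamondUnit_eq M _ _ ?_ _
  have h1 := gamma0Map_inv_mul M σ
  rw [hσ, ← coe_primeUnit M hp hpM] at h1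
  exact Units.eq_inv_of_mul_eq_one_right h1

/-- `κ (T_p ⟨p⟩⁻¹ l) = Tb (κ l)` when the Hecke product over `T1StarReps` (the double coset of
`diag(p,1)`) realises `(T, Nm, Tb)`. -/
theorem kappaLamOf_T1Lam_star (R : ThetaData (Gamma1 M) F) (hD4 : HD4Of (Gamma1 M) R.θ)
    (hp : p.Prime) (hpM : ¬ p ∣ M) (σ : ↥(Gamma0 M)) (hσ : Gamma0Map M σ = (p : ZMod M))
    (T : Divisor ℂ F →+ Divisor ℂ F) (Nm : F → F)
    (hT : ∀ y : F, y ≠ 0 → T (divOf ℂ y) = divOf ℂ (Nm y))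
    (hH : HThetaOf R Nm (T1StarReps M hp hpM σ hσ)) (Tb : Pic0 ℂ F →+ Pic0 ℂ F)
    (hTb : ∀ E : Divisor.degZero (K := ℂ) (F := F), ∃ h, Tb (Pic0.mk E) = Pic0.mk ⟨T E, h⟩)
    {m : ℕ} (hm : 0 < m) {ζ : ℂˣ} (hζ : IsPrimitiveRoot ζ m) (l : ↥(LamOf (Gamma1 M))) :
    kappaLamOf (kummerDataOf R hD4) (kummerDataOf_Good R hD4) hm hζ
        (T1Lam M hp hpM (diamondLam M (primeUnit M hp hpM)⁻¹ l)) =
      Tb (kappaLamOf (kummerDataOf R hD4) (kummerDataOf_Good R hD4) hm hζ l) :=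
  kappaLamOf_of_eq_transfer R hD4 (T1StarReps_isRatPosOf M hp hpM σ hσ) T Nm hT hH Tb hTb hm hζ l _
    (coe_T1Lam_diamondLam_inv M hp hpM σ hσ l)

/-- **Double coset decomposition**: `σ⁻¹ [1, j; 0, p] = g · diag(p, 1) · γ` with `g, γ ∈ Γ₁(M)`
(`σ ∈ Γ₀(M)` with lower right entry `≡ p`): with `p a + M b = 1`, `A = [p, -b; M, a]`,
`B = [1, j - b; M, M j + a p]` one has `A [1, j; 0, p] = diag(p,1) B`, `B ∈ Γ₁(M)` and
`(A σ)⁻¹ ∈ Γ₁(M)`. -/
theorem exists_decomp_inv_mul_heckeMatrix (hp : p.Prime) (hpM : ¬ p ∣ M) (σ : ↥(Gamma0 M))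
    (hσ : Gamma0Map M σ = (p : ZMod M)) (j : ℕ) : ∃ g γ : ↥(Gamma1 M),
      (mapGL ℝ (σ : SL(2, ℤ)))⁻¹ * heckeMatrix p j =
        embOf (Gamma1 M) g * heckeDiagMatrix p * embOf (Gamma1 M) γ := by
  have hcop : IsCoprime (p : ℤ) (M : ℤ) := by
    rw [Int.isCoprime_iff_gcd_eq_one, Int.gcd_natCast_natCast]
    exact (Nat.Prime.coprime_iff_not_dvd hp).mpr hpM
  obtain ⟨a, b, hab⟩ := hcop
  have h : (p : ℤ) * a - (-b) * M = 1 := by linear_combination hab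
  have key := RepsDecomp.mul_heckeMatrix_eq M hp.ne_zero j a (-b) h
  set A : ↥(Gamma0 M) := RepsDecomp.mkGamma0 M p (-b) M a h (dvd_refl _) with hA
  set B : ↥(Gamma0 M) := RepsDecomp.mkGamma0 M 1 (j + -b) M (M * j + a * p)
    (by linear_combination h) (dvd_refl _) with hB
  have hap : ((a : ℤ) : ZMod M) * (p : ZMod M) = 1 := by
    have h1 := congrArg (Int.cast : ℤ → ZMod M) hab
    push_cast at h1
    rw [ZMod.natCast_self, mul_zero, add_zero] at h1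
    exact h1
  have hAmap : Gamma0Map M A = ((a : ℤ) : ZMod M) := rfl
  have hBmap : Gamma0Map M B = 1 := by
    show (((M : ℤ) * (j : ℤ) + a * (p : ℤ) : ℤ) : ZMod M) = 1
    push_cast
    rw [ZMod.natCast_self, zero_mul, zero_add]
    exact hap
  have hB1 : (B : SL(2, ℤ)) ∈ Gamma1 M := (gamma0Map_eq_one_iff M B).mp hBmap
  have hAσ : Gamma0Map M (A * σ) = 1 := by
    rw [map_mul, hAmap, hσ, hap]
  have hg0 : ((A * σ : ↥(Gamma0 M)) : SL(2, ℤ)) ∈ Gamma1 M :=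
    (gamma0Map_eq_one_iff M _).mp hAσ
  have hg1 : (((A * σ)⁻¹ : ↥(Gamma0 M)) : SL(2, ℤ)) ∈ Gamma1 M := by
    rw [Subgroup.coe_inv]
    exact inv_mem hg0
  refine ⟨⟨_, hg1⟩, ⟨_, hB1⟩, ?_⟩
  have e1 : embOf (Gamma1 M) ⟨(((A * σ)⁻¹ : ↥(Gamma0 M)) : SL(2, ℤ)), hg1⟩ =
      (mapGL ℝ (σ : SL(2, ℤ)))⁻¹ * (embG M A)⁻¹ := by
    rw [embOf_apply]
    show mapGL ℝ (((A * σ)⁻¹ : ↥(Gamma0 M)) : SL(2, ℤ)) = _
    rw [Subgroup.coe_inv, Subgroup.coe_mul, map_inv, map_mul, mul_inv_rev]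
    rfl
  have e2 : embOf (Gamma1 M) ⟨(B : SL(2, ℤ)), hB1⟩ = embG M B := rfl
  rw [e1, e2, mul_assoc, mul_assoc, ← key, inv_mul_cancel_left]

/-- **Every representative of `T1StarReps` lies in `Γ₁(M) diag(p,1) Γ₁(M)`.** -/
theorem T1StarReps_rep_mem_doubleCoset (hp : p.Prime) (hpM : ¬ p ∣ M) (σ : ↥(Gamma0 M))
    (hσ : Gamma0Map M σ = (p : ZMod M)) (x : OnePoint (ZMod p)) : ∃ g γ : ↥(Gamma1 M),
      (T1StarReps M hp hpM σ hσ).rep x =
        embOf (Gamma1 M) g * heckeDiagMatrix p * embOf (Gamma1 M) γ := by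
  induction x using OnePoint.rec with
  | infty =>
    refine ⟨1, 1, ?_⟩
    rw [T1StarReps_rep_infty, map_one, one_mul, mul_one]
  | coe j =>
    rw [T1StarReps_rep_coe]
    exact exists_decomp_inv_mul_heckeMatrix M hp hpM σ hσ j.val

variable {L : Type*} [Field L] [Algebra ℂ L] [HasPrincipalDivisors ℂ L]

/-- **`T_p` against the Prelude's correspondence.**  `α β : F →ₐ[ℂ] L` two degeneracy maps with
`θL ∘ α = θ`, `θL ∘ β = (· ∘ diag(p,1)) ∘ θ`, `[L : α F] = p + 1`: then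
`κ (T_p ⟨p⟩⁻¹ l) = Pic0.correspondence β α (κ l)`. -/
theorem kappaLamOf_T1Lam_star_correspondence (R : ThetaData (Gamma1 M) F)
    (hD4 : HD4Of (Gamma1 M) R.θ) (hp : p.Prime) (hpM : ¬ p ∣ M) (σ : ↥(Gamma0 M))
    (hσ : Gamma0Map M σ = (p : ZMod M))
    (α β : F →ₐ[ℂ] L) (hβi : β.toRingHom.IsIntegral) (hαi : α.toRingHom.IsIntegral)
    (hFI : FundamentalIdentityAlong ℂ β hβi) (hfin : FiniteAlong ℂ α)
    (hN : NormFormulaAlong ℂ α hfin) (θL : L →+* MerH) (hα : ∀ x : F, θL (α x) = R.θ x)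
    (hβ : ∀ x : F, θL (β x) = merComp (heckeDiagMatrix p) (R.θ x))
    (hcard : p + 1 = finrankAlong ℂ α)
    {m : ℕ} (hm : 0 < m) {ζ : ℂˣ} (hζ : IsPrimitiveRoot ζ m) (l : ↥(LamOf (Gamma1 M))) :
    kappaLamOf (kummerDataOf R hD4) (kummerDataOf_Good R hD4) hm hζ
        (T1Lam M hp hpM (diamondLam M (primeUnit M hp hpM)⁻¹ l)) =
      Pic0.correspondence β α hβi hαi hFI hfin hN
        (kappaLamOf (kummerDataOf R hD4) (kummerDataOf_Good R hD4) hm hζ l) := by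
  have hl : T1Lam M hp hpM (diamondLam M (primeUnit M hp hpM)⁻¹ l) =
      transferLam (T1StarReps M hp hpM σ hσ) l :=
    Subtype.ext (by rw [coe_T1Lam_diamondLam_inv M hp hpM σ hσ l, coe_transferLam_apply])
  rw [hl]
  refine kappaLamOf_transferLam_correspondence R hD4 α β hβi hαi hFI hfin hN θL hα
    (heckeDiagMatrix p) (det_heckeDiagMatrix_pos p) hβ (T1StarReps M hp hpM σ hσ)
    (T1StarReps_isRatPosOf M hp hpM σ hσ) (T1StarReps_rep_mem_doubleCoset M hp hpM σ hσ) ?_ hm hζ l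
  rw [← hcard]
  -- card (OnePoint (ZMod p)) = p + 1
  rw [show Fintype.card (OnePoint (ZMod p)) = Fintype.card (Option (ZMod p)) from rfl,
    Fintype.card_option, ZMod.card]

end Fermat.Agent.DS.Kum
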