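import Fermat.Agent.DS.Kum.An.KKumOf
import Fermat.Agent.DS.Kum.An.KappaOne

/-!
# PROGRAMME III (S48), block X1-KUM, leaf KUM-5 (helper9): the kernel `KKum` of the X1-OUT skeleton
for `Γ₁(M)`, in hypothesis form

`R : ThetaData (Gamma1 M) F`, `hD4`, `hF : RiemannPkg ℂ F`, `κ = kappaLamOf (kummerDataOf R hD4) …`,
`red : Pic0 ℂ F →+ J` injective on torsion.  Operators:

* `Tb p : Pic0 ℂ F →+ Pic0 ℂ F` (the algebraic Hecke correspondence `α_* β^*`, `β = (q ↦ q^p)`) with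
  `hstar : κ (T_p ⟨p⟩⁻¹ l) = Tb p (κ l)`   [`kappaLamOf_T1Lam_star(_correspondence)`];
* `Db d : Pic0 ℂ F →+ Pic0 ℂ F` (the automorphism realised by `· ∘ δ`, `δ` with lower right entry
  `d`) with `hdia : κ (⟨d⟩ l) = Db d (κ l)`   [`kappaLamOf_diamondLam`];
* `Sp p`, `Sd d` on `J` with `red ∘ Tb p = Sp p ∘ red`, `red ∘ Db d = Sd d ∘ red`.

Then for every `m > 0` there is `ρ : LamOf (Gamma1 M) →+ J` with kernel `m • LamOf (Gamma1 M)`,
`ρ (T1Lam p l) = Sp p (Sd ⟨p⟩ (ρ l))` and `ρ (diamondLam d l) = Sd d (ρ l)`: helper4's `KKum M S T`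
for `T = tLat M` and `S (inl p) = Sp p * Sd (primeUnit p)`, `S (inr d) = Sd d`.
-/

set_option autoImplicit false
set_option linter.unusedSectionVars false

open UpperHalfPlane CongruenceSubgroup AlgebraicCurve

open scoped MatrixGroups

noncomputable section

namespace Fermat.Agent.DS.Kum

open Fermat.Agent.Jac Fermat.Agent.Red
open Fermat.Agent.X0 (HolH MerH)

variable (M : ℕ) [NeZero M]

/-- `⟨d⟩⁻¹ ⟨d⟩ = 1` on the lattice. -/
theorem diamondLam_inv_diamondLam (d : (ZMod M)ˣ) (l : ↥(LamOf (Gamma1 M))) :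
    diamondLam M d⁻¹ (diamondLam M d l) = l := by
  apply Subtype.ext
  rw [coe_diamondLam_apply, coe_diamondLam_apply, ← diamondUnit_mul, inv_mul_cancel,
    diamondUnit_one]

variable {F : Type*} [Field F] [Algebra ℂ F] [HasPrincipalDivisors ℂ F]

/-- **The kernel `KKum` for `Γ₁(M)`, hypothesis form.** -/
theorem exists_kummerMap_one (R : ThetaData (Gamma1 M) F) (hD4 : HD4Of (Gamma1 M) R.θ)
    (hF : RiemannPkg ℂ F) {J : Type*} [AddCommGroup J] (red : Pic0 ℂ F →+ J)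
    (hred : ∀ x : Pic0 ℂ F, (∃ m : ℕ, m ≠ 0 ∧ m • x = 0) → red x = 0 → x = 0)
    (Tb : {p : Nat.Primes // ¬ (p : ℕ) ∣ M} → (Pic0 ℂ F →+ Pic0 ℂ F))
    (Db : (ZMod M)ˣ → (Pic0 ℂ F →+ Pic0 ℂ F))
    (hstar : ∀ (p : {p : Nat.Primes // ¬ (p : ℕ) ∣ M}) {m : ℕ} (hm : 0 < m) {ζ : ℂˣ}
      (hζ : IsPrimitiveRoot ζ m) (l : ↥(LamOf (Gamma1 M))),
      kappaLamOf (kummerDataOf R hD4) (kummerDataOf_Good R hD4) hm hζ
          (T1Lam M p.1.2 p.2 (diamondLam M (primeUnit M p.1.2 p.2)⁻¹ l)) =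
        Tb p (kappaLamOf (kummerDataOf R hD4) (kummerDataOf_Good R hD4) hm hζ l))
    (hdia : ∀ (d : (ZMod M)ˣ) {m : ℕ} (hm : 0 < m) {ζ : ℂˣ} (hζ : IsPrimitiveRoot ζ m)
      (l : ↥(LamOf (Gamma1 M))),
      kappaLamOf (kummerDataOf R hD4) (kummerDataOf_Good R hD4) hm hζ (diamondLam M d l) =
        Db d (kappaLamOf (kummerDataOf R hD4) (kummerDataOf_Good R hD4) hm hζ l))
    (Sp : {p : Nat.Primes // ¬ (p : ℕ) ∣ M} → Module.End ℤ J) (Sd : (ZMod M)ˣ → Module.End ℤ J)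
    (hSp : ∀ p x, red (Tb p x) = Sp p (red x)) (hSd : ∀ d x, red (Db d x) = Sd d (red x))
    (T : {p : Nat.Primes // ¬ (p : ℕ) ∣ M} ⊕ (ZMod M)ˣ → Module.End ℤ ↥(LamOf (Gamma1 M)))
    (hTp : ∀ p, T (Sum.inl p) = T1Lam M p.1.2 p.2) (hTd : ∀ d, T (Sum.inr d) = diamondLam M d)
    (S : {p : Nat.Primes // ¬ (p : ℕ) ∣ M} ⊕ (ZMod M)ˣ → Module.End ℤ J)
    (hS1 : ∀ p x, S (Sum.inl p) x = Sp p (Sd (primeUnit M p.1.2 p.2) x))
    (hS2 : ∀ d x, S (Sum.inr d) x = Sd d x) (m : ℕ) (hm : 0 < m) :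
    ∃ ρ : ↥(LamOf (Gamma1 M)) →+ J, (∀ x, ρ x = 0 ↔ ∃ y : ↥(LamOf (Gamma1 M)), x = m • y) ∧
      ∀ i x, ρ (T i x) = S i (ρ x) := by
  refine exists_kummerMap_of_spec R hD4 hF red hred T S
    (fun i => Sum.elim (fun p => (Tb p).comp (Db (primeUnit M p.1.2 p.2))) (fun d => Db d) i)
    ?_ ?_ m hm
  · rintro (p | d) m' hm' ζ hζ l
    · rw [hTp]
      show _ = Tb p (Db (primeUnit M p.1.2 p.2) _)
      rw [← hdia _ hm' hζ l, ← hstar p hm' hζ, diamondLam_inv_diamondLam]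
    · rw [hTd]
      exact hdia d hm' hζ l
  · rintro (p | d) x
    · show red (Tb p (Db (primeUnit M p.1.2 p.2) x)) = _
      rw [hSp, hSd, hS1]
    · show red (Db d x) = _
      rw [hSd, hS2]

end Fermat.Agent.DS.Kum
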