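import Fermat.Agent.DS.Kum.An.KummerOf
import Fermat.Agent.X0.ValInfPsi
import Fermat.Agent.X0.ModComplete

/-!
# PROGRAMME III (S48), block X1-KUM, leaf KUM-2g (helper9): invariant functions meromorphic at the
cusps are automorphic ratios; `ThetaData` from a ring realisation

* `exists_uniform_cusp_bound` : for `f` invariant under a subgroup `Γ'` of finite index and
  meromorphic at all cusps (`X0.IsMeroAtCusps`), ONE power `Δ ^ m` makes `Δ ^ m · (f ∘ σ)` bounded
  at `i∞` for all `σ ∈ SL(2,ℤ)`;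
* `mem_autoField_of_invariant` : a holomorphic `Γ'`-invariant function meromorphic at all cusps is
  the ratio `(Δ ^ m f) / Δ ^ m` of two modular forms of weight `12 m` for `Γ'`;
* `ThetaData.ofRing` : for a `ℂ`-subalgebra `R` with fraction field `F` and a realisation
  `θ₀ : R →+* (ℍ → ℂ)` by holomorphic `Γ'`-invariant functions meromorphic at the cusps (the fields
  of helper6's `ModReal ℂ id Γ' W F`), `jR ↦ j`, and `(jR : F)` a separating variable of degree
  `[SL(2,ℤ) : Γ']` : the `ThetaData Γ F` of `θ = X0.merHom θ₀`, for every `Γ ≤ Γ' ⊆ ± Γ`.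
-/

set_option autoImplicit false
set_option linter.unusedSectionVars false
set_option linter.style.haveILetI false

open UpperHalfPlane ModularForm CongruenceSubgroup Matrix.SpecialLinearGroup AlgebraicCurve

open scoped MatrixGroups Manifold

noncomputable section

namespace Fermat.Agent.DS.Kum

open Fermat.Agent.Jac
open Fermat.Agent.X0 (HolH MerH IsMeroAtCusps IsMeroAtImInfty merHom holHom merHom_algebraMap)

local notation "Δ" => ModularForm.discriminant

variable {Γ Γ' : Subgroup SL(2, ℤ)}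

/-! ### A uniform exponent -/

/-- For a `Γ'`-invariant function meromorphic at all cusps one power of `Δ` bounds all the
translates. -/
theorem exists_uniform_cusp_bound [Γ'.FiniteIndex] {f : ℍ → ℂ}
    (hinv : ∀ γ ∈ Γ', ∀ z : ℍ, f (γ • z) = f z) (hm : IsMeroAtCusps f) :
    ∃ m : ℕ, ∀ σ : SL(2, ℤ), IsBoundedAtImInfty (Δ ^ m * fun z => f (σ • z)) := by
  classical
  letI : Fintype (SL(2, ℤ) ⧸ Γ') := Subgroup.fintypeQuotientOfFiniteIndex
  choose e he using fun c : SL(2, ℤ) ⧸ Γ' => hm (Quotient.out c : SL(2, ℤ))⁻¹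
  refine ⟨Finset.univ.sup e, fun σ => ?_⟩
  set c : SL(2, ℤ) ⧸ Γ' := QuotientGroup.mk (σ⁻¹ : SL(2, ℤ)) with hc
  have hmem : (σ⁻¹)⁻¹ * (Quotient.out c : SL(2, ℤ)) ∈ Γ' := by
    rw [← QuotientGroup.eq]
    exact (QuotientGroup.out_eq' c).symm
  have heq : (fun z => f (σ • z)) = fun z => f ((Quotient.out c : SL(2, ℤ))⁻¹ • z) := by
    funext z
    have h1 := hinv _ hmem ((Quotient.out c : SL(2, ℤ))⁻¹ • z)
    rw [mul_smul, smul_inv_smul, inv_inv] at h1
    exact h1
  rw [heq]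
  exact IsMeroAtImInfty.of_le (Finset.le_sup (f := e) (Finset.mem_univ c)) (he c)

/-! ### Invariant functions are automorphic ratios -/

/-- The slash action on a product with a function of weight `0`. -/
theorem mul_comp_slash (g f : ℍ → ℂ) (k : ℤ) (σ : SL(2, ℤ)) :
    (g * f) ∣[k] σ = (g ∣[k] σ) * fun z => f (σ • z) := by
  funext z
  rw [SL_slash_apply, Pi.mul_apply, Pi.mul_apply, SL_slash_apply]
  ring

theorem discriminant_pow_slash (m : ℕ) (σ : SL(2, ℤ)) :
    (Δ ^ m) ∣[(m : ℤ) * 12] σ = Δ ^ m := by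
  rw [pow_slash_SL2, Fermat.Agent.X0.discriminant_slash]

/-- `Δ ^ m` as a form with trivial character on any `Γ'`. -/
def deltaPowForm (Γ' : Subgroup SL(2, ℤ)) (m : ℕ) :
    CharFormOf Γ' ((m : ℤ) * 12) (1 : ↥Γ' →* ℂˣ) where
  toFun := Δ ^ m
  holo' := mdifferentiable_pow CuspForm.discriminant.holo' m
  slash' γ := by
    rw [MonoidHom.one_apply, Units.val_one, one_smul, discriminant_pow_slash]
  bdd' σ := by
    rw [discriminant_pow_slash]
    exact Fermat.Agent.X0.discriminant_pow_isBoundedAtImInfty m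

theorem deltaPowForm_mer_ne_zero (Γ' : Subgroup SL(2, ℤ)) (m : ℕ) :
    (deltaPowForm Γ' m).mer ≠ 0 := by
  rw [CharFormOf.mer_ne_zero_iff]
  exact ⟨UpperHalfPlane.I, pow_ne_zero m (ModularForm.discriminant_ne_zero _)⟩

/-- `Δ ^ m f` as a form with trivial character on `Γ'`, for `f` holomorphic, `Γ'`-invariant, with
all translates of `Δ ^ m f` bounded at `i∞`. -/
def deltaPowMulForm {f : ℍ → ℂ} (hf : MDiff f) (hinv : ∀ γ ∈ Γ', ∀ z : ℍ, f (γ • z) = f z)
    (m : ℕ) (hb : ∀ σ : SL(2, ℤ), IsBoundedAtImInfty (Δ ^ m * fun z => f (σ • z))) :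
    CharFormOf Γ' ((m : ℤ) * 12) (1 : ↥Γ' →* ℂˣ) where
  toFun := Δ ^ m * f
  holo' := (mdifferentiable_pow CuspForm.discriminant.holo' m).mul hf
  slash' γ := by
    rw [MonoidHom.one_apply, Units.val_one, one_smul, mul_comp_slash, discriminant_pow_slash]
    congr 1
    funext z
    exact hinv γ γ.2 z
  bdd' σ := by
    rw [mul_comp_slash, discriminant_pow_slash]
    exact hb σ

/-- **A holomorphic `Γ'`-invariant function meromorphic at all cusps is an automorphic ratio.** -/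
theorem mem_autoField_of_invariant [Γ'.FiniteIndex] {f : ℍ → ℂ} (hf : MDiff f)
    (hinv : ∀ γ ∈ Γ', ∀ z : ℍ, f (γ • z) = f z) (hm : IsMeroAtCusps f) :
    algebraMap HolH MerH ⟨f, hf⟩ ∈ autoField (Γ'.map (mapGL ℝ)) := by
  obtain ⟨m, hb⟩ := exists_uniform_cusp_bound hinv hm
  set num := deltaPowMulForm hf hinv m hb with hnum
  set den := deltaPowForm Γ' m with hden
  have hden0 : den.mer ≠ 0 := deltaPowForm_mer_ne_zero Γ' m
  have h := merOf_div_mem_autoField num.toModularForm den.toModularForm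
    (CharFormOf.toModularForm_ne_zero hden0)
  rw [CharFormOf.merOf_toModularForm, CharFormOf.merOf_toModularForm] at h
  have heq : num.mer / den.mer = algebraMap HolH MerH ⟨f, hf⟩ := by
    rw [div_eq_iff hden0]
    have h1 : num.hol = (⟨f, hf⟩ : HolH) * den.hol := by
      apply Subtype.ext
      show Δ ^ m * f = f * Δ ^ m
      rw [mul_comm]
    rw [CharFormOf.mer, h1, map_mul]
    rfl
  rwa [heq] at h

/-! ### `ThetaData` from a ring realisation -/

section Ring

variable {F : Type*} [Field F] [Algebra ℂ F] (R : Subalgebra ℂ F) [IsFractionRing R F]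

/-- The values of `merHom θ₀` on `R` are automorphic ratios. -/
theorem merHom_mem_autoField [Γ'.FiniteIndex] (θ₀ : R →+* (ℍ → ℂ)) (hinj : Function.Injective θ₀)
    (hmd : ∀ r, MDiff (θ₀ r)) (hinv : ∀ γ ∈ Γ', ∀ (r : R) (z : ℍ), θ₀ r (γ • z) = θ₀ r z)
    (hmero : ∀ r, IsMeroAtCusps (θ₀ r)) (y : F) :
    merHom (F := F) θ₀ hinj hmd y ∈ autoField (Γ'.map (mapGL ℝ)) := by
  obtain ⟨a, b, -, rfl⟩ := IsFractionRing.div_surjective (A := R) y
  rw [map_div₀, merHom_algebraMap, merHom_algebraMap]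
  exact div_mem (mem_autoField_of_invariant (hmd a) (fun γ hγ z => hinv γ hγ a z) (hmero a))
    (mem_autoField_of_invariant (hmd b) (fun γ hγ z => hinv γ hγ b z) (hmero b))

/-- **`ThetaData` from a ring realisation** (the fields of helper6's `ModReal ℂ id Γ' W F`). -/
def ThetaData.ofRing [Γ.FiniteIndex] [Γ'.FiniteIndex] (hle : Γ ≤ Γ')
    (hpm : ∀ γ ∈ Γ', γ ∈ Γ ∨ -γ ∈ Γ) (θ₀ : R →+* (ℍ → ℂ)) (hinj : Function.Injective θ₀)
    (hmd : ∀ r, MDiff (θ₀ r)) (hinv : ∀ γ ∈ Γ', ∀ (r : R) (z : ℍ), θ₀ r (γ • z) = θ₀ r z)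
    (hconst : ∀ c : ℂ, θ₀ (algebraMap ℂ R c) = fun _ => c) (jR : R)
    (hj : θ₀ jR = Fermat.Agent.X0.jFun) (hmero : ∀ r, IsMeroAtCusps (θ₀ r))
    (hsep : Fermat.Agent.X0.IsSepVar ℂ ((jR : R) : F) Γ'.index) : ThetaData Γ F :=
  ThetaData.ofSepVar hle hpm ((jR : R) : F) hsep (merHom (F := F) θ₀ hinj hmd)
    (fun c => by
      have h1 : algebraMap ℂ F c = algebraMap R F (algebraMap ℂ R c) := rfl
      rw [h1, merHom_algebraMap]
      show algebraMap HolH MerH _ = algebraMap HolH MerH (constHol c)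
      congr 1
      apply Subtype.ext
      show θ₀ (algebraMap ℂ R c) = _
      rw [hconst]
      rfl)
    (by
      have h1 : ((jR : R) : F) = algebraMap R F jR := rfl
      rw [h1, merHom_algebraMap, jMer]
      congr 1
      apply Subtype.ext
      show θ₀ jR = _
      rw [hj]
      rfl)
    (merHom_mem_autoField R θ₀ hinj hmd hinv hmero)

@[simp] theorem ThetaData.ofRing_θ [Γ.FiniteIndex] [Γ'.FiniteIndex] (hle : Γ ≤ Γ')
    (hpm : ∀ γ ∈ Γ', γ ∈ Γ ∨ -γ ∈ Γ) (θ₀ : R →+* (ℍ → ℂ)) (hinj : Function.Injective θ₀)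
    (hmd : ∀ r, MDiff (θ₀ r)) (hinv : ∀ γ ∈ Γ', ∀ (r : R) (z : ℍ), θ₀ r (γ • z) = θ₀ r z)
    (hconst : ∀ c : ℂ, θ₀ (algebraMap ℂ R c) = fun _ => c) (jR : R)
    (hj : θ₀ jR = Fermat.Agent.X0.jFun) (hmero : ∀ r, IsMeroAtCusps (θ₀ r))
    (hsep : Fermat.Agent.X0.IsSepVar ℂ ((jR : R) : F) Γ'.index) :
    (ThetaData.ofRing R hle hpm θ₀ hinj hmd hinv hconst jR hj hmero hsep).θ =
      merHom (F := F) θ₀ hinj hmd := rfl

end Ring

end Fermat.Agent.DS.Kum
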