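import Fermat.Agent.DS.Kum.An.MerActionOf
import Fermat.Agent.DS.Kum.LamChar

/-!
# PROGRAMME III (S48), block X1-KUM, leaf KUM-2c (helper9): the Kummer data of ANY `Γ ≤ SL(2,ℤ)`
over `ℂ`

The `Γ`-generic port of `Jac/KummerC.lean` and of the `ex` field of `Jac/MerAction.lean`.

* `slash_neg_of_even`, `CharFormOf.extendPM` : a form of even weight with trivial character on `Γ`
  is a form on any `Γ' ⊆ ± Γ`;
* `CharFormOf.mer_div_mem_autoField_pm` : a quotient of two forms with the same character of finite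
  order on `Γ` is an automorphic ratio for `Γ'` (`Γ ≤ Γ' ⊆ ± Γ`) — for `Γ = Γ₁(M)` the function
  field has degree `[SL(2,ℤ) : ± Γ₁(M)]` over `ℂ(j)`, so the algebraicity theorem
  `Jac.exists_preimage_of_finrank` has to be applied to `± Γ₁(M)`;
* `smul_eq_of_mem_autoField`, `isCharRatioOf_of_mem_autoField_of_le`;
* `ThetaData Γ F` : a realisation `θ : F →+* MerH` of a function field `F / ℂ` by `Γ`-invariant
  admissible functions containing all invariant admissible functions (`ex`);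
  `ThetaData.ofSepVar` : the constructor from a separating variable `x ↦ j` of degree
  `[SL(2,ℤ) : Γ']`;
* `HD4Of`, `kummerDataOf R hD4 : KummerData ℂ F MerH Γ` with `Good = goodChar Γ`,
  `Adm = IsCharRatioOf Γ`.
-/

set_option autoImplicit false
set_option linter.unusedSectionVars false

open UpperHalfPlane ModularForm CongruenceSubgroup Matrix.SpecialLinearGroup AlgebraicCurve

open scoped MatrixGroups Manifold

noncomputable section

namespace Fermat.Agent.DS.Kum

open Fermat.Agent.Jac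
open Fermat.Agent.X0 (HolH MerH)

/-! ### Even weight: from `Γ` to `± Γ` -/

/-- In even weight, `-γ` and `γ` have the same slash action. -/
theorem slash_neg_of_even {k : ℤ} (hk : Even k) (f : ℍ → ℂ) (γ : SL(2, ℤ)) :
    f ∣[k] (-γ) = f ∣[k] γ := by
  funext z
  rw [SL_slash_apply, SL_slash_apply, ModularGroup.SL_neg_smul]
  congr 1
  rw [ModularGroup.denom_apply (-γ) z, ModularGroup.denom_apply γ z,
    Matrix.SpecialLinearGroup.coe_neg, Matrix.neg_apply, Matrix.neg_apply]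
  have hd : (((-((γ : Matrix (Fin 2) (Fin 2) ℤ) 1 0) : ℤ) : ℂ)) * (z : ℂ) +
      ((-((γ : Matrix (Fin 2) (Fin 2) ℤ) 1 1) : ℤ) : ℂ) =
      -((((γ : Matrix (Fin 2) (Fin 2) ℤ) 1 0 : ℤ) : ℂ) * (z : ℂ) +
        (((γ : Matrix (Fin 2) (Fin 2) ℤ) 1 1 : ℤ) : ℂ)) := by
    push_cast
    ring
  rw [hd, Even.neg_zpow hk.neg]

variable {Γ Γ' : Subgroup SL(2, ℤ)}

/-- A form of even weight with trivial character on `Γ` is a form on every `Γ' ⊆ ± Γ`. -/
def CharFormOf.extendPM (hpm : ∀ γ ∈ Γ', γ ∈ Γ ∨ -γ ∈ Γ) {k : ℤ} (hk : Even k)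
    (A : CharFormOf Γ k (1 : ↥Γ →* ℂˣ)) : CharFormOf Γ' k (1 : ↥Γ' →* ℂˣ) where
  toFun := A
  holo' := A.holo
  slash' γ := by
    rw [MonoidHom.one_apply, Units.val_one, one_smul]
    rcases hpm γ γ.2 with h | h
    · have := A.slash ⟨γ, h⟩
      rwa [MonoidHom.one_apply, Units.val_one, one_smul] at this
    · have := A.slash ⟨-γ, h⟩
      rwa [MonoidHom.one_apply, Units.val_one, one_smul, slash_neg_of_even hk] at this
  bdd' σ := A.bdd σ

@[simp] theorem CharFormOf.extendPM_apply (hpm : ∀ γ ∈ Γ', γ ∈ Γ ∨ -γ ∈ Γ) {k : ℤ}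
    (hk : Even k) (A : CharFormOf Γ k (1 : ↥Γ →* ℂˣ)) (z : ℍ) :
    A.extendPM hpm hk z = A z := rfl

theorem CharFormOf.mer_extendPM (hpm : ∀ γ ∈ Γ', γ ∈ Γ ∨ -γ ∈ Γ) {k : ℤ}
    (hk : Even k) (A : CharFormOf Γ k (1 : ↥Γ →* ℂˣ)) :
    (A.extendPM hpm hk).mer = A.mer := rfl

/-- **Killing the character, `±` form.**  If `χ ^ m = 1` then the quotient of two forms of weight
`k` and character `χ` on `Γ` is a ratio of two modular forms of weight `2 m k` for every
`Γ' ⊆ ± Γ` of finite index. -/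
theorem CharFormOf.mer_div_mem_autoField_pm [Γ'.FiniteIndex]
    (hpm : ∀ γ ∈ Γ', γ ∈ Γ ∨ -γ ∈ Γ) {k : ℤ} {χ : ↥Γ →* ℂˣ} {m : ℕ} (hm : 0 < m)
    (hχ : χ ^ m = 1) (A B : CharFormOf Γ k χ) :
    A.mer / B.mer ∈ autoField (Γ'.map (mapGL ℝ)) := by
  by_cases hB : B.mer = 0
  · rw [hB, div_zero]
    exact zero_mem _
  have hm2 : 0 < 2 * m := by omega
  have hχ2 : χ ^ (2 * m) = 1 := by
    ext γ
    have h := DFunLike.congr_fun hχ γ
    rw [MonoidHom.pow_apply, MonoidHom.one_apply] at h ⊢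
    rw [mul_comm, pow_mul, h, one_pow]
  have hchar : χ * χ ^ (2 * m - 1) = 1 := by
    have h1 : χ ^ (2 * m - 1 + 1) = χ * χ ^ (2 * m - 1) := pow_succ' χ (2 * m - 1)
    rw [Nat.sub_add_cancel hm2] at h1
    rw [← h1, hχ2]
  have hwt : k + ((2 * m - 1 : ℕ) : ℤ) * k = ((2 * m : ℕ) : ℤ) * k := by
    have h1 : ((2 * m - 1 : ℕ) : ℤ) = ((2 * m : ℕ) : ℤ) - 1 := by
      rw [Nat.cast_sub hm2, Nat.cast_one]
    rw [h1]
    ring
  have heven : Even (((2 * m : ℕ) : ℤ) * k) := by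
    refine Even.mul_right ?_ k
    exact ⟨(m : ℤ), by push_cast; ring⟩
  set num : CharFormOf Γ (((2 * m : ℕ) : ℤ) * k) 1 :=
    (A.mul (B.pow (2 * m - 1))).cast hwt hchar with hnum
  set den : CharFormOf Γ (((2 * m : ℕ) : ℤ) * k) 1 := (B.pow (2 * m)).cast rfl hχ2 with hden
  have hnum' : num.mer = A.mer * B.mer ^ (2 * m - 1) := by
    rw [hnum, CharFormOf.mer_cast, CharFormOf.mer_mul, CharFormOf.mer_pow]
  have hden' : den.mer = B.mer ^ (2 * m) := by
    rw [hden, CharFormOf.mer_cast, CharFormOf.mer_pow]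
  have hden0 : (den.extendPM hpm heven).mer ≠ 0 := by
    rw [CharFormOf.mer_extendPM, hden']
    exact pow_ne_zero _ hB
  have h := merOf_div_mem_autoField (num.extendPM hpm heven).toModularForm
    (den.extendPM hpm heven).toModularForm (CharFormOf.toModularForm_ne_zero hden0)
  rw [CharFormOf.merOf_toModularForm, CharFormOf.merOf_toModularForm, CharFormOf.mer_extendPM,
    CharFormOf.mer_extendPM, hnum', hden'] at h
  have heq : A.mer * B.mer ^ (2 * m - 1) / B.mer ^ (2 * m) = A.mer / B.mer := by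
    have hBm : B.mer ^ (2 * m) = B.mer * B.mer ^ (2 * m - 1) := by
      rw [← pow_succ', Nat.sub_add_cancel hm2]
    rw [hBm, mul_div_mul_right _ _ (pow_ne_zero (2 * m - 1) hB)]
  rwa [heq] at h

/-- The elements of `autoField Γ'` are `Γ'`-invariant. -/
theorem smul_eq_of_mem_autoField [Γ'.FiniteIndex] {G : MerH}
    (hG : G ∈ autoField (Γ'.map (mapGL ℝ))) (γ : ↥Γ') : γ • G = G := by
  obtain ⟨k, f, g, hg, e⟩ := hG
  have hg' : (CharFormOf.ofModularForm g).mer ≠ 0 := by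
    rw [CharFormOf.mer_ofModularForm]
    exact (merOf_eq_zero_iff g).not.mpr hg
  have hGe : G = (CharFormOf.ofModularForm f).mer / (CharFormOf.ofModularForm g).mer := by
    rw [CharFormOf.mer_ofModularForm, CharFormOf.mer_ofModularForm, ← e,
      mul_div_cancel_right₀ _ ((merOf_eq_zero_iff g).not.mpr hg)]
  rw [hGe, subgroup_smul_mer, CharFormOf.smul_mer_div, MonoidHom.one_apply, Units.val_one,
    div_one, map_one, one_mul]

/-- Automorphic ratios for `Γ'` are admissible for every `Γ ≤ Γ'` of finite index. -/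
theorem isCharRatioOf_of_mem_autoField_of_le [Γ.FiniteIndex] [Γ'.FiniteIndex] (hle : Γ ≤ Γ')
    {G : MerH} (hG : G ∈ autoField (Γ'.map (mapGL ℝ))) : IsCharRatioOf Γ G := by
  obtain ⟨k, f, g, hg, e⟩ := hG
  have hle' : Γ.map (mapGL ℝ) ≤ Γ'.map (mapGL ℝ) := Subgroup.map_mono hle
  refine isCharRatioOf_of_mem_autoField ⟨k, restrictForm hle' f, restrictForm hle' g, ?_, ?_⟩
  · intro h0
    apply hg
    ext z
    have := congrArg (fun F : ModularForm (Γ.map (mapGL ℝ)) k => F z) h0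
    simpa using this
  · rw [merOf_restrictForm, merOf_restrictForm]
    exact e

/-! ### Realisations of a function field -/

/-- A realisation of a function field `F / ℂ` by `Γ`-invariant admissible meromorphic functions on
`ℍ`, containing all of them (`ex`). -/
structure ThetaData (Γ : Subgroup SL(2, ℤ)) (F : Type*) [Field F] [Algebra ℂ F] where
  /-- the realisation -/
  θ : F →+* MerH
  θ_algebraMap : ∀ c : ℂ, θ (algebraMap ℂ F c) = constMer c
  smul_θ : ∀ (γ : ↥Γ) (y : F), γ • θ y = θ y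
  adm_θ : ∀ y : F, IsCharRatioOf Γ (θ y)
  ex : ∀ G : MerH, G ≠ 0 → IsCharRatioOf Γ G → (∀ γ : ↥Γ, γ • G = G) → ∃ y : F, θ y = G

/-- **The algebraicity constructor.**  `Γ ≤ Γ' ⊆ ± Γ` of finite index, `x : F` a separating
variable of degree `[SL(2,ℤ) : Γ']`, `θ : F →+* MerH` mapping constants to constants, `x` to `j`
and `F` into the automorphic ratios of `Γ'`. -/
def ThetaData.ofSepVar {F : Type*} [Field F] [Algebra ℂ F] [Γ.FiniteIndex] [Γ'.FiniteIndex]
    (hle : Γ ≤ Γ') (hpm : ∀ γ ∈ Γ', γ ∈ Γ ∨ -γ ∈ Γ) (x : F)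
    (hx : Fermat.Agent.X0.IsSepVar ℂ x Γ'.index) (θ : F →+* MerH)
    (hθc : ∀ c : ℂ, θ (algebraMap ℂ F c) = constMer c) (hθx : θ x = jMer)
    (hθA : ∀ y : F, θ y ∈ autoField (Γ'.map (mapGL ℝ))) : ThetaData Γ F where
  θ := θ
  θ_algebraMap := hθc
  smul_θ γ y := smul_eq_of_mem_autoField (hθA y) ⟨γ, hle γ.2⟩
  adm_θ y := isCharRatioOf_of_mem_autoField_of_le hle (hθA y)
  ex G hG0 hG hinv := by
    obtain ⟨k, χ, χ', A, B, hχ, hχ', hB, e⟩ := hG
    have hGe : G = A.mer / B.mer := by rw [← e, mul_div_cancel_right₀ _ hB]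
    have hχχ' : χ = χ' :=
      CharFormOf.char_eq_of_smul_mer_div_eq A B (hGe ▸ hG0) fun γ => by
        rw [← hGe]
        exact hinv γ
    subst hχχ'
    obtain ⟨m, hm, hχm⟩ := isOfFinOrder_iff_pow_eq_one.mp hχ
    rw [hGe]
    exact exists_preimage_of_finrank x hx.finite (hx.finrank_eq.trans (slIndex_map Γ').symm) θ
      hθc hθx hθA (CharFormOf.mer_div_mem_autoField_pm hpm hm hχm A B)

/-! ### The Kummer data -/

section Kummer

variable {F : Type*} [Field F] [Algebra ℂ F]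

/-- The divisibility hypothesis (D4) for a realisation `θ`. -/
def HD4Of (Γ : Subgroup SL(2, ℤ)) (θ : F →+* MerH) : Prop :=
  ∀ (m : ℕ) (k : ℤ) (χa χb : ↥Γ →* ℂˣ) (A : CharFormOf Γ k χa) (B : CharFormOf Γ k χb),
    IsOfFinOrder χa → IsOfFinOrder χb → A.mer ≠ 0 → B.mer ≠ 0 → χb / χa ∈ goodChar Γ →
    ∀ y : F, θ y = (A.mer / B.mer) ^ m → ∀ P : Place ℂ F, (m : ℤ) ∣ P.ord y

/-- **The Kummer data of `Γ` over `ℂ`**: admissible functions = quotients of forms of the same
weight with characters of finite order, good characters = `goodChar Γ`; in hypothesis form on the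
divisibility statement (D4). -/
def kummerDataOf (R : ThetaData Γ F) (hD4 : HD4Of Γ R.θ) : KummerData ℂ F MerH ↥Γ where
  θ := R.θ
  θ_algebraMap := R.θ_algebraMap
  smul_θ := R.smul_θ
  smul_algebraMap γ a := smul_algebraMap_mer (γ : SL(2, ℤ)) a
  Adm := IsCharRatioOf Γ
  adm_mul := IsCharRatioOf.mul
  adm_inv := IsCharRatioOf.inv
  adm_θ := R.adm_θ
  Good := goodChar Γ
  ex := R.ex
  dvd := by
    rintro m χ G y hχ hG0 ⟨k, χa, χb, A, B, ha, hb, hB, e⟩ hG hy P
    have hGe : G = A.mer / B.mer := by rw [← e, mul_div_cancel_right₀ _ hB]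
    have hA : A.mer ≠ 0 := by
      rw [← e]
      exact mul_ne_zero hG0 hB
    subst hGe
    have hχeq : χ = χb / χa := CharFormOf.char_eq_of_smul_mer_div A B hG0 hG
    exact hD4 m k χa χb A B ha hb hA hB (hχeq ▸ hχ) y hy P
  exists_mf χ hχ hfin :=
    exists_isMF_eisOf hχ.1 (fun γ hγ => goodChar_apply_of_lower_left_eq_zero hχ γ hγ) hfin

@[simp] theorem kummerDataOf_θ (R : ThetaData Γ F) (hD4 : HD4Of Γ R.θ) :
    (kummerDataOf R hD4).θ = R.θ := rfl

@[simp] theorem kummerDataOf_Good (R : ThetaData Γ F) (hD4 : HD4Of Γ R.θ) :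
    (kummerDataOf R hD4).Good = goodChar Γ := rfl

end Kummer

end Fermat.Agent.DS.Kum
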