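import Fermat.Agent.Jac.EisChar

/-!
# PROGRAMME III (S48), block X1-KUM, leaf KUM-2a (helper9): Eisenstein series with a character of
ANY `Γ ≤ SL(2,ℤ)`

The `Γ`-generic port of `Jac/EisChar.lean` (written there for `Γ₀(N)`): `χ : Γ →* ℂˣ` a character
with unitary values which is trivial on the elements of `Γ` with lower left entry `0`.

* `charWeightOf χ`, `eisCharOf χ k = eisTwist (charWeightOf χ) k`;
* `eisCharOf_slash` : `eisCharOf χ k ∣[k] γ = χ γ • eisCharOf χ k` for `γ ∈ Γ`;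
* `mdifferentiable_eisCharOf`, `isBoundedAtImInfty_eisCharOf_slash`;
* `eisTwistConst_charWeightOf`, `exists_eisCharOf_ne_zero` (even weight `k ≥ 4`): the constant term
  is `1` or `2` (according to whether `Γ` contains an element with bottom row `(0, -1)`).
-/

set_option autoImplicit false

open UpperHalfPlane EisensteinSeries Matrix ModularForm CongruenceSubgroup Filter Topology Complex
  Set

open scoped MatrixGroups Manifold

noncomputable section

namespace Fermat.Agent.DS.Kum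

open Fermat.Agent.Jac

variable {Γ : Subgroup SL(2, ℤ)}

section Weight

variable (χ : ↥Γ →* ℂˣ)

/-- The weight function of a character: `(χ γ)⁻¹` on the bottom row of `γ ∈ Γ`, zero on the
vectors which are not such a bottom row. -/
def charWeightOf (v : Fin 2 → ℤ) : ℂ := by
  classical
  exact if h : ∃ γ : ↥Γ, botRow γ = v then ((χ h.choose)⁻¹ : ℂˣ) else 0

variable {χ}

/-- Two elements of `Γ` with the same bottom row have the same character value. -/
theorem charOf_eq_of_botRow_eq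
    (hpar : ∀ γ : ↥Γ, (γ : SL(2, ℤ)) 1 0 = 0 → χ γ = 1)
    {γ δ : ↥Γ} (h : botRow (γ : SL(2, ℤ)) = botRow (δ : SL(2, ℤ))) : χ γ = χ δ := by
  have h1 : botRow ((γ * δ⁻¹ : ↥Γ) : SL(2, ℤ)) = ![0, 1] := by
    rw [Subgroup.coe_mul, botRow_mul, h, ← botRow_mul, Subgroup.coe_inv, mul_inv_cancel, botRow_one]
  have h2 : ((γ * δ⁻¹ : ↥Γ) : SL(2, ℤ)) 1 0 = 0 := by
    have := congrFun h1 0
    simpa [botRow] using this
  have h3 := hpar _ h2
  rw [map_mul, map_inv, mul_inv_eq_one] at h3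
  exact h3

theorem charWeightOf_botRow
    (hpar : ∀ γ : ↥Γ, (γ : SL(2, ℤ)) 1 0 = 0 → χ γ = 1) (γ : ↥Γ) :
    charWeightOf χ (botRow (γ : SL(2, ℤ))) = ((χ γ)⁻¹ : ℂˣ) := by
  classical
  unfold charWeightOf
  have h : ∃ δ : ↥Γ, botRow (δ : SL(2, ℤ)) = botRow (γ : SL(2, ℤ)) := ⟨γ, rfl⟩
  rw [dif_pos h, charOf_eq_of_botRow_eq hpar h.choose_spec]

theorem charWeightOf_of_not_exists {v : Fin 2 → ℤ}
    (h : ¬ ∃ γ : ↥Γ, botRow (γ : SL(2, ℤ)) = v) : charWeightOf χ v = 0 := by
  classical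
  unfold charWeightOf
  rw [dif_neg h]

/-- The weight function is bounded by `1` if `χ` is unitary. -/
theorem isBddWeight_charWeightOf (hunit : ∀ γ, ‖((χ γ : ℂˣ) : ℂ)‖ = 1) :
    IsBddWeight (charWeightOf χ) 1 := by
  classical
  intro v
  unfold charWeightOf
  split_ifs with h
  · rw [Units.val_inv_eq_inv_val, norm_inv, hunit, inv_one]
  · simp

/-- The equivariance of the weight function under right multiplication by `Γ`. -/
theorem charWeightOf_vecMul
    (hpar : ∀ γ : ↥Γ, (γ : SL(2, ℤ)) 1 0 = 0 → χ γ = 1) (γ : ↥Γ)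
    (v : Fin 2 → ℤ) :
    charWeightOf χ (v ᵥ* ((γ : SL(2, ℤ)) : Matrix (Fin 2) (Fin 2) ℤ)) =
      ((χ γ)⁻¹ : ℂˣ) * charWeightOf χ v := by
  by_cases h : ∃ δ : ↥Γ, botRow (δ : SL(2, ℤ)) = v
  · obtain ⟨δ, rfl⟩ := h
    rw [← botRow_mul, ← Subgroup.coe_mul, charWeightOf_botRow hpar, charWeightOf_botRow hpar,
      map_mul, mul_inv, Units.val_mul, mul_comm]
  · rw [charWeightOf_of_not_exists h, mul_zero]
    apply charWeightOf_of_not_exists
    rintro ⟨δ, hδ⟩
    apply h
    refine ⟨δ * γ⁻¹, ?_⟩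
    rw [Subgroup.coe_mul, botRow_mul, hδ, Subgroup.coe_inv, vecMul_vecMul,
      ← Matrix.SpecialLinearGroup.coe_mul, mul_inv_cancel, Matrix.SpecialLinearGroup.coe_one,
      vecMul_one]

end Weight

section Series

variable (χ : ↥Γ →* ℂˣ)

/-- The Eisenstein series of weight `k` with character `χ` of `Γ`. -/
def eisCharOf (k : ℤ) : ℍ → ℂ := eisTwist (charWeightOf χ) k

variable {χ}
variable (hunit : ∀ γ, ‖((χ γ : ℂˣ) : ℂ)‖ = 1)
  (hpar : ∀ γ : ↥Γ, (γ : SL(2, ℤ)) 1 0 = 0 → χ γ = 1)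

include hpar in
/-- **The transformation law** (slash form). -/
theorem eisCharOf_slash (k : ℤ) (γ : ↥Γ) :
    eisCharOf χ k ∣[k] (γ : SL(2, ℤ)) = ((χ γ : ℂˣ) : ℂ) • eisCharOf χ k := by
  unfold eisCharOf
  rw [eisTwist_slash]
  have h : (fun v => charWeightOf χ
      (v ᵥ* (((γ : SL(2, ℤ))⁻¹ : SL(2, ℤ)) : Matrix (Fin 2) (Fin 2) ℤ)))
      = fun v => ((χ γ : ℂˣ) : ℂ) * charWeightOf χ v := by
    funext v
    have := charWeightOf_vecMul hpar γ⁻¹ v
    rw [Subgroup.coe_inv, map_inv, inv_inv] at this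
    exact this
  rw [h]
  ext z
  simp only [eisTwist, Pi.smul_apply, smul_eq_mul, ← tsum_mul_left, mul_assoc]

include hpar in
/-- **The transformation law** (pointwise form). -/
theorem eisCharOf_smul_apply (k : ℤ) (γ : ↥Γ) (z : ℍ) :
    eisCharOf χ k ((γ : SL(2, ℤ)) • z) =
      ((χ γ : ℂˣ) : ℂ) * denom (γ : SL(2, ℤ)) z ^ k * eisCharOf χ k z := by
  have h := congrFun (eisCharOf_slash hpar k γ) z
  rw [SL_slash_apply, Pi.smul_apply, smul_eq_mul, _root_.zpow_neg,
    mul_inv_eq_iff_eq_mul₀ (zpow_ne_zero _ (denom_ne_zero _ z))] at h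
  rw [h]
  ring

include hunit in
theorem mdifferentiable_eisCharOf {k : ℤ} (hk : 3 ≤ k) : MDiff (eisCharOf χ k) :=
  mdifferentiable_eisTwist (isBddWeight_charWeightOf hunit) hk

include hunit in
/-- Boundedness at all cusps. -/
theorem isBoundedAtImInfty_eisCharOf_slash {k : ℤ} (hk : 3 ≤ k) (A : SL(2, ℤ)) :
    IsBoundedAtImInfty (eisCharOf χ k ∣[k] A) := by
  unfold eisCharOf
  rw [eisTwist_slash]
  exact isBoundedAtImInfty_eisTwist ((isBddWeight_charWeightOf hunit).comp_vecMul _) hk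

end Series

section ConstTerm

variable {χ : ↥Γ →* ℂˣ}
  (hunit : ∀ γ, ‖((χ γ : ℂˣ) : ℂ)‖ = 1)
  (hpar : ∀ γ : ↥Γ, (γ : SL(2, ℤ)) 1 0 = 0 → χ γ = 1)

include hpar in
theorem charWeightOf_zero_one : charWeightOf χ ![0, 1] = 1 := by
  have := charWeightOf_botRow hpar (1 : ↥Γ)
  rw [Subgroup.coe_one, botRow_one, map_one, inv_one, Units.val_one] at this
  exact this

include hpar in
/-- the weight of `(0, -1)` is `1` or `0` -/
theorem charWeightOf_zero_neg_one :
    charWeightOf χ ![0, -1] = 1 ∨ charWeightOf χ ![0, -1] = 0 := by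
  by_cases h : ∃ δ : ↥Γ, botRow (δ : SL(2, ℤ)) = ![0, -1]
  · left
    obtain ⟨δ, hδ⟩ := h
    have h1 := charWeightOf_botRow hpar δ
    have h2 : χ δ = 1 := by
      apply hpar
      have := congrFun hδ 0
      simpa [botRow] using this
    rw [h2, inv_one, Units.val_one, hδ] at h1
    exact h1
  · right
    exact charWeightOf_of_not_exists h

include hpar in
/-- The constant term of `eisCharOf χ k` for even `k` is `1` or `2`. -/
theorem eisTwistConst_charWeightOf {k : ℤ} (hk : Even k) :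
    eisTwistConst (charWeightOf χ) k = 1 + charWeightOf χ ![0, -1] := by
  classical
  unfold eisTwistConst
  have hne : (![0, 1] : Fin 2 → ℤ) ≠ ![0, -1] := by
    intro h
    have := congrFun h 1
    simp at this
  rw [tsum_eq_sum (s := {![0, 1], ![0, -1]})]
  · rw [Finset.sum_pair hne]
    simp only [Matrix.cons_val_zero, if_true, Matrix.cons_val_one, charWeightOf_zero_one hpar,
      one_mul]
    have h3 : ((-1 : ℤ) : ℂ) ^ (-k) = 1 := by
      rw [Int.cast_neg, Int.cast_one]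
      exact hk.neg.neg_one_zpow
    rw [h3]
    simp
  · intro v hv
    split_ifs with h0
    · by_cases h : ∃ δ : ↥Γ, botRow (δ : SL(2, ℤ)) = v
      · exfalso
        obtain ⟨δ, rfl⟩ := h
        apply hv
        rcases botRow_eq_of_zero h0 with h1 | h1 <;> simp [h1]
      · rw [charWeightOf_of_not_exists h, zero_mul]
    · rfl

include hpar in
theorem eisTwistConst_charWeightOf_ne_zero {k : ℤ} (hk : Even k) :
    eisTwistConst (charWeightOf χ) k ≠ 0 := by
  rw [eisTwistConst_charWeightOf hpar hk]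
  rcases charWeightOf_zero_neg_one hpar with h | h
  · rw [h]; norm_num
  · rw [h]; norm_num

include hunit in
/-- **`eisCharOf χ k` has a limit at `i∞`** (nonzero for even `k ≥ 4`). -/
theorem tendsto_eisCharOf_atImInfty {k : ℤ} (hk : 3 ≤ k) :
    Tendsto (eisCharOf χ k) atImInfty (𝓝 (eisTwistConst (charWeightOf χ) k)) :=
  tendsto_eisTwist_atImInfty (isBddWeight_charWeightOf hunit) hk (w := charWeightOf χ)

include hunit hpar in
/-- The Eisenstein series with character is not identically zero. -/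
theorem exists_eisCharOf_ne_zero {k : ℤ} (hk : 3 ≤ k) (hk2 : Even k) :
    ∃ z : ℍ, eisCharOf χ k z ≠ 0 := by
  have h := (tendsto_eisCharOf_atImInfty hunit hk).eventually_ne
    (eisTwistConst_charWeightOf_ne_zero hpar hk2)
  exact h.exists

end ConstTerm

section Quotient

variable {χ : ↥Γ →* ℂˣ}
  (hpar : ∀ γ : ↥Γ, (γ : SL(2, ℤ)) 1 0 = 0 → χ γ = 1)

include hpar in
/-- The behaviour at the other cusps: `E ∣ A` transforms under `A⁻¹ Γ A` by `χ`. -/
theorem eisCharOf_slash_conj (k : ℤ) (A : SL(2, ℤ)) (γ : ↥Γ) :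
    (eisCharOf χ k ∣[k] A) ∣[k] (A⁻¹ * (γ : SL(2, ℤ)) * A) =
      ((χ γ : ℂˣ) : ℂ) • (eisCharOf χ k ∣[k] A) := by
  rw [← SlashAction.slash_mul, mul_assoc, mul_inv_cancel_left, SlashAction.slash_mul,
    eisCharOf_slash hpar, SL_smul_slash]

end Quotient

end Fermat.Agent.DS.Kum
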