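import Mathlib
import Fermat.Agent.DS.X1.K1PlacesC
import Fermat.Agent.DS.X1.Diamond
import Fermat.Agent.DS.J1Spec.LbcFunctor
import Fermat.Agent.DS.Kum.C.KummerOne
import Fermat.Agent.DS.Kum.An.HThetaAut
import Fermat.Agent.DS.Kum.An.KKumOne

/-!
# PROGRAMME III (S48), block X1-KUM, the diamond half (helper9)

`D : WeberCuspData M`, `γ ∈ Γ₀(M)`.  The automorphism `lbcEquiv ℂ (diamondK D γ)` of
`K1L ℂ M = ℂ(X₁(M))` (helper2's `diamondK`, base-changed by helper5's `lbcEquiv`) is realised on the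
upper half plane by `· ∘ γ`:

* `thetaMerOf_lbcEquiv_diamondK` :
  `thetaMerOf (modRealK1C D) (lbcEquiv ℂ (diamondK D γ hγ) y) = merComp γ (thetaMerOf (modRealK1C D) y)`;
* `kappaLamOf_diamondLam_one` : for every `R : ThetaData (Γ₁(M)) (K1L ℂ M)` with
  `R.θ = thetaMerOf (modRealK1C D)`:
  `κ (diamondLam M d l) = ofAlgAut (lbcEquiv ℂ (diamondQ D d⁻¹)) • κ l`.
-/

set_option autoImplicit false
set_option linter.unusedSectionVars false

open UpperHalfPlane ModularForm CongruenceSubgroup Matrix.SpecialLinearGroup AlgebraicCurve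
  ModularCurve

open scoped MatrixGroups Manifold

noncomputable section

namespace Fermat.Agent.DS.Kum

open Fermat.Agent.Jac Fermat.Agent.Red Fermat.Agent.DS.X1 Fermat.Agent.DS.X1.Places
  Fermat.Agent.DS.X1Hecke Fermat.Agent.DS.J1Spec
open Fermat.Agent.X0 (HolH MerH)

variable {M : ℕ} [NeZero M]

theorem thetaMerOf_modRealK1C_genC (D : WeberCuspData M) {s : LaurentSeries ℚ}
    (hs : s ∈ gens1 M) :
    thetaMerOf (modRealK1C D) (genC hs) =
      algebraMap HolH MerH (thetaHolOf (modRealK1C D) ⟨genC hs, genC_mem_RGen hs⟩) :=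
  thetaMerOf_coe (modRealK1C D) ⟨genC hs, genC_mem_RGen hs⟩

/-- `genC` is the rational embedding of the generator. -/
theorem genC_eq_emb {s : LaurentSeries ℚ} (hs : s ∈ gens1 M) :
    (genC hs : K1L ℂ M) = emb ℂ (K1 M) ⟨s, IntermediateField.subset_adjoin ℚ _ hs⟩ := rfl

/-- the base-changed diamond fixes the image of `j(q^d)`, `d ∣ M`. -/
theorem lbcEquiv_diamondK_jqd (D : WeberAnData M) (γ : SL(2, ℤ)) (hγ : γ ∈ Gamma0 M) {d : ℕ}
    [NeZero d] (hd : d ∣ M) :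
    lbcEquiv ℂ (diamondK D γ hγ) (genC (jqd_mem_gens1 hd)) = genC (jqd_mem_gens1 hd) := by
  rw [genC_eq_emb, lbcEquiv_emb]
  exact congrArg (emb ℂ (K1 M)) (diamondK_jqd D γ hγ hd)

/-- the base-changed diamond on the image of a Weber series. -/
theorem lbcEquiv_diamondK_weberQ (D : WeberAnData M) (γ : SL(2, ℤ)) (hγ : γ ∈ Gamma0 M) {a b : ℕ}
    (ha : 0 < a) (haM : a < M) (hb : 0 < b) (hbM : b < M)
    (hab : (b : ZMod M) = (a : ZMod M) * ((γ 0 0 : ℤ) : ZMod M)) :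
    lbcEquiv ℂ (diamondK D γ hγ) (genC (weberQ_mem_gens1 ha haM)) =
      genC (weberQ_mem_gens1 hb hbM) := by
  rw [genC_eq_emb, lbcEquiv_emb]
  exact congrArg (emb ℂ (K1 M)) (diamondK_weberQ D γ hγ ha haM hb hbM hab)

/-- composition with `γ` on the realisation of a generator. -/
theorem merComp_thetaMerOf_genC (D : WeberCuspData M) (γ : SL(2, ℤ)) {s s' : LaurentSeries ℚ}
    (hs : s ∈ gens1 M) (hs' : s' ∈ gens1 M)
    (h : ∀ z : ℍ, (modRealK1C D).θ ⟨genC hs, genC_mem_RGen hs⟩ (γ • z) =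
      (modRealK1C D).θ ⟨genC hs', genC_mem_RGen hs'⟩ z) :
    merComp (mapGL ℝ γ) (thetaMerOf (modRealK1C D) (genC hs)) =
      thetaMerOf (modRealK1C D) (genC hs') := by
  rw [thetaMerOf_modRealK1C_genC, thetaMerOf_modRealK1C_genC, merComp_algebraMap]
  congr 1
  apply Subtype.ext
  funext z
  rw [coe_holComp (det_mapGL_pos γ)]
  exact h z

/-- **the diamond half on the generators.** -/
theorem thetaMerOf_lbcEquiv_diamondK_genC (D : WeberCuspData M) (γ : SL(2, ℤ))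
    (hγ : γ ∈ Gamma0 M) {s : LaurentSeries ℚ} (hs : s ∈ gens1 M) :
    thetaMerOf (modRealK1C D) (lbcEquiv ℂ (diamondK D.toWeberAnData γ hγ) (genC hs)) =
      merComp (mapGL ℝ γ) (thetaMerOf (modRealK1C D) (genC hs)) := by
  rcases hs with ⟨d, hne, hd, rfl⟩ | ⟨a, ha, haM, rfl⟩
  · rw [show genC (Or.inl ⟨d, hne, hd, rfl⟩ : qExpand ℚ d jq ∈ gens1 M) =
      genC (jqd_mem_gens1 hd) from rfl, lbcEquiv_diamondK_jqd D.toWeberAnData γ hγ hd,
      merComp_thetaMerOf_genC D γ (jqd_mem_gens1 hd) (jqd_mem_gens1 hd)]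
    intro z
    have e1 := congrFun (modRealK1C_θ_jqd D hd) (γ • z)
    have e2 := congrFun (modRealK1C_θ_jqd D hd) z
    exact e1.trans ((Fermat.Agent.X0.jAn_scaleH_smul hd γ hγ z).trans e2.symm)
  · obtain ⟨b, hb, hbM, hab⟩ := exists_index hγ ha haM
    rw [show genC (Or.inr ⟨a, ha, haM, rfl⟩ : weberQ M a ∈ gens1 M) =
      genC (weberQ_mem_gens1 ha haM) from rfl,
      lbcEquiv_diamondK_weberQ D.toWeberAnData γ hγ ha haM hb hbM hab,
      merComp_thetaMerOf_genC D γ (weberQ_mem_gens1 ha haM) (weberQ_mem_gens1 hb hbM)]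
    intro z
    have e1 := congrFun (modRealK1C_θ_weberQ D ha haM) (γ • z)
    have e2 := congrFun (modRealK1C_θ_weberQ D hb hbM) z
    exact e1.trans ((D.smul γ hγ a b ha haM hb hbM hab z).trans e2.symm)

set_option synthInstance.maxHeartbeats 400000 in
/-- **The diamond half, analytic form**: the automorphism `lbcEquiv ℂ (diamondK D γ)` of
`ℂ(X₁(M))` is realised by `· ∘ γ`, `γ ∈ Γ₀(M)`. -/
theorem thetaMerOf_lbcEquiv_diamondK (D : WeberCuspData M) (γ : SL(2, ℤ)) (hγ : γ ∈ Gamma0 M)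
    (y : K1L ℂ M) :
    thetaMerOf (modRealK1C D) (lbcEquiv ℂ (diamondK D.toWeberAnData γ hγ) y) =
      merComp (mapGL ℝ γ) (thetaMerOf (modRealK1C D) y) := by
  have key : ∀ x : K1L ℂ M, x ∈ RGen (K1L ℂ M) (gens1C M) →
      thetaMerOf (modRealK1C D) (lbcEquiv ℂ (diamondK D.toWeberAnData γ hγ) x) =
        merComp (mapGL ℝ γ) (thetaMerOf (modRealK1C D) x) := by
    intro x hx
    unfold RGen at hx
    induction hx using Algebra.adjoin_induction with
    | mem x hx =>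
      obtain ⟨s, hs, hxs⟩ := hx
      have : x = genC hs := Subtype.ext hxs
      rw [this]
      exact thetaMerOf_lbcEquiv_diamondK_genC D γ hγ hs
    | algebraMap c =>
      rw [AlgEquiv.commutes, thetaMerOf_algebraMap, merComp_constMer]
    | add x y _ _ hx hy => rw [map_add, map_add, hx, hy, map_add, map_add]
    | mul x y _ _ hx hy => rw [map_mul, map_mul, hx, hy, map_mul, map_mul]
  obtain ⟨g, h, rfl⟩ := hfrac_K1C y
  rw [map_div₀, map_div₀, key _ g.2, key _ h.2, map_div₀, map_div₀]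

/-- the lower right entry of an element of `Γ₀(M)` with upper left entry `≡ d⁻¹` is `≡ d`. -/
theorem lowerRight_eq_of_upperLeft_inv {γ : SL(2, ℤ)} (hγ : γ ∈ Gamma0 M) (d : (ZMod M)ˣ)
    (hd : ((γ 0 0 : ℤ) : ZMod M) = ((d⁻¹ : (ZMod M)ˣ) : ZMod M)) :
    ((γ 1 1 : ℤ) : ZMod M) = (d : ZMod M) := by
  have h1 := upperLeft_mul_lowerRight hγ
  rw [hd] at h1
  calc ((γ 1 1 : ℤ) : ZMod M)
      = (d : ZMod M) * (((d⁻¹ : (ZMod M)ˣ) : ZMod M) * ((γ 1 1 : ℤ) : ZMod M)) := by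
        rw [← mul_assoc, ← Units.val_mul, mul_inv_cancel, Units.val_one, one_mul]
    _ = (d : ZMod M) := by rw [h1, mul_one]

variable [HasPrincipalDivisors ℂ (K1L ℂ M)]

/-- **The diamond half of the Kummer map of `Γ₁(M)`**: for every realisation datum `R` of
`ℂ(X₁(M))` with `R.θ = thetaMerOf (modRealK1C D)`,
`κ (⟨d⟩ l) = (lbcEquiv ℂ (diamondQ D d⁻¹)) • κ l`
(`diamondLam M d` is induced by `δ ∈ Γ₀(M)` with LOWER RIGHT entry `≡ d`; helper2's `diamondQ D e`
by `γ ∈ Γ₀(M)` with UPPER LEFT entry `≡ e`, `diamondQ D e : W_a ↦ W_{ae}`). -/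
theorem kappaLamOf_diamondLam_one (D : WeberCuspData M) (R : ThetaData (Gamma1 M) (K1L ℂ M))
    (hθ : R.θ = thetaMerOf (modRealK1C D)) (hD4 : HD4Of (Gamma1 M) R.θ) (d : (ZMod M)ˣ)
    {m : ℕ} (hm : 0 < m) {ζ : ℂˣ} (hζ : IsPrimitiveRoot ζ m) (l : ↥(LamOf (Gamma1 M))) :
    kappaLamOf (kummerDataOf R hD4) (kummerDataOf_Good R hD4) hm hζ (diamondLam M d l) =
      SemilinearAut.ofAlgAut (lbcEquiv ℂ (diamondQ D.toWeberAnData d⁻¹)) •
        kappaLamOf (kummerDataOf R hD4) (kummerDataOf_Good R hD4) hm hζ l := by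
  obtain ⟨γ, hγ, hd⟩ := exists_Gamma0_upperLeft (M := M) d⁻¹
  rw [diamondQ_eq_diamondK D.toWeberAnData d⁻¹ hγ hd]
  refine kappaLamOf_diamondLam M R hD4 d ⟨γ, hγ⟩ ?_ _ (fun y => ?_) hm hζ l
  · exact lowerRight_eq_of_upperLeft_inv hγ d hd
  · rw [hθ]
    exact thetaMerOf_lbcEquiv_diamondK D γ hγ y

/-- the same for helper28's `kappaOne` of the instance `modRealK1C D`. -/
theorem kappaOne_diamondLam (D : WeberCuspData M) (hM : 3 ≤ M) (d : (ZMod M)ˣ)
    {m : ℕ} (hm : 0 < m) {ζ : ℂˣ} (hζ : IsPrimitiveRoot ζ m) (l : ↥(LamOf (Gamma1 M))) :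
    kappaOne (modRealK1C D) hM (isSepVar_modRealK1C D hM)
        (thetaC_modRealK1C_injective D (le_trans (by norm_num) hM)) hm hζ (diamondLam M d l) =
      SemilinearAut.ofAlgAut (lbcEquiv ℂ (diamondQ D.toWeberAnData d⁻¹)) •
        kappaOne (modRealK1C D) hM (isSepVar_modRealK1C D hM)
          (thetaC_modRealK1C_injective D (le_trans (by norm_num) hM)) hm hζ l :=
  kappaLamOf_diamondLam_one D (thetaDataOne (modRealK1C D) hM (isSepVar_modRealK1C D hM)) rfl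
    (hD4_one (modRealK1C D) hM (isSepVar_modRealK1C D hM)
      (thetaC_modRealK1C_injective D (le_trans (by norm_num) hM))) d hm hζ l

end Fermat.Agent.DS.Kum
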