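import Fermat.Agent.DS.Kum.An.KappaHeckeOf
import Fermat.Agent.Jac.NormCosets
import Fermat.Agent.Jac.CorrComm

/-!
# PROGRAMME III (S48), block X1-KUM, leaf KUM-2h (helper9): `H_θ` — the Hecke product of `θ y` is
`θ` of the norm `Nm_α (β y)`, for ANY `Γ ≤ SL(2,ℤ)` and any pair of degeneracy maps

The `Γ`-generic, field-generic twin of `Jac/HTheta.heckeProdMer_thetaMer_of_decomp`.

Data: `R : ThetaData Γ F` (level `Γ`), a second function field `L / ℂ` ("level `Γ ∩ g₀⁻¹ Γ g₀`") with
a realisation `θL : L →+* MerH`, two embeddings `α β : F →ₐ[ℂ] L` with `θL ∘ α = θ` and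
`θL ∘ β = (· ∘ g₀) ∘ θ` for a matrix `g₀` of positive determinant, and a coset system
`D : CosetReps (embOf Γ) ι` all of whose representatives lie in `Γ g₀ Γ`, with `card ι = [L : α F]`.

* `heckeProdMerOf_theta_of_decomp` : `heckeProdMerOf D (θ y) = θ (Nm_α (β y))`, i.e.
  `HThetaOf R (fun y => normAlong α (β y)) D`;
* `kappaLamOf_transferLam_correspondence` : hence the Kummer homomorphism intertwines the lattice
  operator `transferLam D` with the Prelude's `Pic0.correspondence β α` (pull back along `β`, push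
  forward along `α`).
-/

set_option autoImplicit false
set_option linter.unusedSectionVars false
set_option linter.style.haveILetI false

open UpperHalfPlane ModularForm CongruenceSubgroup Matrix.SpecialLinearGroup AlgebraicCurve

open scoped MatrixGroups Manifold

noncomputable section

namespace Fermat.Agent.DS.Kum

open Fermat.Agent.Jac Fermat.Agent.Red
open Fermat.Agent.X0 (HolH MerH)

variable {Γ : Subgroup SL(2, ℤ)} {F : Type*} [Field F] [Algebra ℂ F]

/-- `θ y` is invariant under composition with `γ ∈ Γ`. -/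
theorem merComp_embOf_theta (R : ThetaData Γ F) (γ : ↥Γ) (y : F) :
    merComp (embOf Γ γ) (R.θ y) = R.θ y := by
  have h := R.smul_θ γ⁻¹ y
  rw [subgroup_smul_eq_merCompOf, inv_inv] at h
  exact h

theorem det_mul_pos' {g h : GL (Fin 2) ℝ} (hg : 0 < g.det.val) (hh : 0 < h.det.val) :
    0 < (g * h).det.val := by
  rw [map_mul, Units.val_mul]
  exact mul_pos hg hh

variable {L : Type*} [Field L] [Algebra ℂ L] {ι : Type*} [Fintype ι]

/-- **(J4-alg), generic form.**  If every representative of the coset system `D` lies in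
`Γ g₀ Γ` and `D` has `[L : α F]` elements, then `∏ i, (θ y) ∘ δ_i = θ (Nm_α (β y))`. -/
theorem heckeProdMerOf_theta_of_decomp (R : ThetaData Γ F) (α β : F →ₐ[ℂ] L)
    (hfin : FiniteAlong ℂ α) (θL : L →+* MerH) (hα : ∀ x : F, θL (α x) = R.θ x)
    (g₀ : GL (Fin 2) ℝ) (hg₀ : 0 < g₀.det.val)
    (hβ : ∀ x : F, θL (β x) = merComp g₀ (R.θ x))
    (D : CosetReps (embOf Γ) ι) (hD : D.IsRatPosOf)
    (hdec : ∀ i, ∃ g γ : ↥Γ, D.rep i = embOf Γ g * g₀ * embOf Γ γ)
    (hcard : Fintype.card ι = finrankAlong ℂ α) (y : F) :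
    heckeProdMerOf D (R.θ y) = R.θ (normAlong α (β y)) := by
  classical
  letI algF : Algebra F L := algebraAlong α
  haveI hfin' : FiniteDimensional F L := hfin
  have halg : ∀ x : F, algebraMap F L x = α x := fun _ => rfl
  choose g γ hgγ using hdec
  have hpos : ∀ γ' : ↥Γ, 0 < (embOf Γ γ').det.val := fun γ' => det_mapGL_pos _
  let ψ : ι → L →+* MerH := fun i => (merComp (embOf Γ (γ i))).comp θL
  have hψ : ∀ i, (ψ i).comp (algebraMap F L) = R.θ := by
    intro i
    ext x
    show merComp (embOf Γ (γ i)) (θL (algebraMap F L x)) = _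
    rw [halg, hα, merComp_embOf_theta]
  have hψβ : ∀ i (x : F), ψ i (β x) = merComp (D.rep i) (R.θ x) := by
    intro i x
    show merComp (embOf Γ (γ i)) (θL (β x)) = _
    rw [hβ, ← merComp_mul_apply hg₀ (hpos _), hgγ i, mul_assoc,
      merComp_mul_apply (hpos _) (det_mul_pos' hg₀ (hpos _)), merComp_embOf_theta]
  have hcard' : Fintype.card ι = Module.finrank F L := hcard
  have hne : Nonempty ι := by
    rw [← Fintype.card_pos_iff, hcard']
    exact Module.finrank_pos
  have hprod : ∀ x : F, ∏ i, ψ i (β.toRingHom x) = heckeProdMerOf D (R.θ x) := by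
    intro x
    rw [heckeProdMerOf_apply]
    exact Finset.prod_congr rfl fun i _ => hψβ i x
  have hR : ∀ x : F, ∏ i, ψ i (β.toRingHom x) ∈ R.θ.range := by
    intro x
    rw [hprod]
    by_cases hx : x = 0
    · rw [hx, map_zero, heckeProdMerOf_zero]
      exact ⟨0, map_zero _⟩
    · have hG0 : R.θ x ≠ 0 := (map_ne_zero R.θ).mpr hx
      have hinvG : ∀ γ' : ↥Γ, merComp (embOf Γ γ'⁻¹) (R.θ x) =
          constMer (((1 : ↥Γ →* ℂˣ) γ' : ℂˣ) : ℂ) * R.θ x := by
        intro γ'
        rw [merComp_embOf_theta, MonoidHom.one_apply, Units.val_one, map_one, one_mul]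
      obtain ⟨y', hy'⟩ := R.ex _ (heckeProdMerOf_ne_zero D hG0)
        (IsCharRatioOf.heckeProdMerOf hD (R.adm_θ x))
        (fun γ' => by
          rw [subgroup_smul_eq_merCompOf, merComp_inv_heckeProdMerOf hD 1 hinvG γ',
            transferMulOf_one_apply, Units.val_one, map_one, one_mul])
      exact ⟨y', hy'⟩
  have hS : (Set.range (algebraMap ℂ F)).Infinite :=
    Set.infinite_range_of_injective (algebraMap ℂ F).injective
  have hconst : ∀ c ∈ Set.range (algebraMap ℂ F), ∀ i, ψ i (β.toRingHom c) = R.θ c := by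
    rintro _ ⟨a, rfl⟩ i
    show ψ i (β (algebraMap ℂ F a)) = _
    rw [hψβ, R.θ_algebraMap, merComp_constMer]
  have key := NormCosets.map_norm_eq_prod_of_cosets R.θ β.toRingHom ψ hψ hcard' _ hS hconst hR y
  rw [hprod] at key
  exact key.symm

/-- The same as a statement `HThetaOf`. -/
theorem hThetaOf_of_decomp (R : ThetaData Γ F) (α β : F →ₐ[ℂ] L)
    (hfin : FiniteAlong ℂ α) (θL : L →+* MerH) (hα : ∀ x : F, θL (α x) = R.θ x)
    (g₀ : GL (Fin 2) ℝ) (hg₀ : 0 < g₀.det.val)
    (hβ : ∀ x : F, θL (β x) = merComp g₀ (R.θ x))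
    (D : CosetReps (embOf Γ) ι) (hD : D.IsRatPosOf)
    (hdec : ∀ i, ∃ g γ : ↥Γ, D.rep i = embOf Γ g * g₀ * embOf Γ γ)
    (hcard : Fintype.card ι = finrankAlong ℂ α) :
    HThetaOf R (fun y => normAlong α (β y)) D :=
  fun y _ => heckeProdMerOf_theta_of_decomp R α β hfin θL hα g₀ hg₀ hβ D hD hdec hcard y

/-- **Hecke equivariance of the Kummer homomorphism against the Prelude's correspondence.** -/
theorem kappaLamOf_transferLam_correspondence [HasPrincipalDivisors ℂ F]
    [HasPrincipalDivisors ℂ L] (R : ThetaData Γ F) (hD4 : HD4Of Γ R.θ) (α β : F →ₐ[ℂ] L)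
    (hβi : β.toRingHom.IsIntegral) (hαi : α.toRingHom.IsIntegral)
    (hFI : FundamentalIdentityAlong ℂ β hβi) (hfin : FiniteAlong ℂ α)
    (hN : NormFormulaAlong ℂ α hfin) (θL : L →+* MerH) (hα : ∀ x : F, θL (α x) = R.θ x)
    (g₀ : GL (Fin 2) ℝ) (hg₀ : 0 < g₀.det.val)
    (hβ : ∀ x : F, θL (β x) = merComp g₀ (R.θ x))
    (D : CosetReps (embOf Γ) ι) (hD : D.IsRatPosOf)
    (hdec : ∀ i, ∃ g γ : ↥Γ, D.rep i = embOf Γ g * g₀ * embOf Γ γ)
    (hcard : Fintype.card ι = finrankAlong ℂ α)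
    {m : ℕ} (hm : 0 < m) {ζ : ℂˣ} (hζ : IsPrimitiveRoot ζ m) (l : ↥(LamOf Γ)) :
    kappaLamOf (kummerDataOf R hD4) (kummerDataOf_Good R hD4) hm hζ (transferLam D l) =
      Pic0.correspondence β α hβi hαi hFI hfin hN
        (kappaLamOf (kummerDataOf R hD4) (kummerDataOf_Good R hD4) hm hζ l) :=
  kappaLamOf_transferLam R hD4 hD (Divisor.correspondence β α hβi hαi)
    (fun y => normAlong α (β y))
    (fun _ hy => correspondence_divOf β α hβi hαi hfin hN hy)
    (hThetaOf_of_decomp R α β hfin θL hα g₀ hg₀ hβ D hD hdec hcard)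
    (Pic0.correspondence β α hβi hαi hFI hfin hN)
    (fun E => ⟨Divisor.correspondence_mem_degZero β α hβi hαi hFI E.2,
      Pic0.correspondence_mk β α hβi hαi hFI hfin hN E⟩) hm hζ l

end Fermat.Agent.DS.Kum
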