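import Fermat.Agent.DS.Kum.An.MerActionOf
import Fermat.Agent.DS.Kum.TransferGen
import Fermat.Agent.Jac.HeckeProd

/-!
# PROGRAMME III (S48), block X1-KUM, leaf KUM-2d (helper9): the Hecke product of a multiplicative
function for ANY `Γ ≤ SL(2,ℤ)`

The `Γ`-generic port of the abstract half of `Jac/HeckeProd.lean` (written there for `Γ₀(N)`).
`D : CosetReps (embOf Γ) ι` a finite system of representatives `δ_i ∈ GL₂(ℝ)` of left cosets
`Γ δ_i` stable under right multiplication by `Γ`, all `δ_i` rational of positive determinant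
(`D.IsRatPosOf`).

* `CharFormOf.heckeProdOf hD A : CharFormOf Γ (k * card ι) (D.transferMul χ)` : `∏ i, A ∣[k] δ_i`;
* `heckeProdMerOf D : MerH →* MerH`, `G ↦ ∏ i, G ∘ δ_i`;
* `heckeProdMerOf_mer_div`, `IsCharRatioOf.heckeProdMerOf`;
* `merComp_heckeProdMerOf`, `merComp_inv_heckeProdMerOf` : the character of the Hecke product is
  the (multiplicative) transfer of the character.
-/

set_option autoImplicit false
set_option linter.unusedSectionVars false

open UpperHalfPlane ModularForm CongruenceSubgroup Matrix.SpecialLinearGroup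
open scoped MatrixGroups ModularForm Manifold

noncomputable section

namespace Fermat.Agent.DS.Kum

open Fermat.Agent.Jac
open Fermat.Agent.X0

/-! ### Rational coset systems of positive determinant -/


variable {Γ : Subgroup SL(2, ℤ)} {ι : Type*} [Fintype ι]

/-- All representatives of the coset system are rational of positive determinant. -/
structure _root_.Fermat.Agent.Jac.CosetReps.IsRatPosOf (D : CosetReps (embOf Γ) ι) : Prop where
  pos : ∀ i, 0 < (D.rep i).det.val
  rat : ∀ i, D.rep i ∈ ratGL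

variable {D : CosetReps (embOf Γ) ι} {k k' : ℤ} {χ χ' : ↥Γ →* ℂˣ}

/-- The basic relation: `(A ∣ δ_i) ∣ γ = χ (γ_i) • A ∣ δ_{σ i}`. -/
theorem CharFormOf.slash_rep_slash (hD : D.IsRatPosOf) (A : CharFormOf Γ k χ) (γ : ↥Γ)
    (i : ι) :
    ((A : ℍ → ℂ) ∣[k] D.rep i) ∣[k] (γ : SL(2, ℤ)) =
      ((χ (D.coc γ i) : ℂˣ) : ℂ) • ((A : ℍ → ℂ) ∣[k] D.rep (D.next γ i)) := by
  have h1 : ((A : ℍ → ℂ) ∣[k] D.rep i) ∣[k] (γ : SL(2, ℤ)) =
      (A : ℍ → ℂ) ∣[k] (D.rep i * embOf Γ γ) := by
    rw [SL_slash, SlashAction.slash_mul]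
    rfl
  rw [h1, D.rel γ i, SlashAction.slash_mul]
  have h2 : (A : ℍ → ℂ) ∣[k] embOf Γ (D.coc γ i) =
      ((χ (D.coc γ i) : ℂˣ) : ℂ) • (A : ℍ → ℂ) := A.slash (D.coc γ i)
  rw [h2, smul_slash_of_det_pos (hD.pos _)]

/-- **The Hecke product of a form with character**: `∏ i, A ∣[k] δ_i` is a form of weight
`k * card ι` with character the transfer of `χ`. -/
def CharFormOf.heckeProdOf (hD : D.IsRatPosOf) (A : CharFormOf Γ k χ) :
    CharFormOf Γ (k * (Finset.univ : Finset ι).card) (D.transferMul χ) where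
  toFun := ∏ i, (A : ℍ → ℂ) ∣[k] D.rep i
  holo' := mdifferentiable_finset_prod _ _ fun i _ => A.holo.slash k (D.rep i)
  slash' γ := by
    rw [finset_prod_slash_SL2]
    simp_rw [A.slash_rep_slash hD γ]
    rw [Finset.prod_smul, CosetReps.transferMul_apply, Units.coe_prod]
    congr 1
    exact Equiv.prod_comp (D.nextEquiv γ) (fun i => (A : ℍ → ℂ) ∣[k] D.rep i)
  bdd' σ := by
    rw [finset_prod_slash_SL2]
    exact isBoundedAtImInfty_finset_prod _ _ fun i _ =>
      isBoundedAtImInfty_slash_slash_of_mem_ratGL A.bdd (hD.rat i) σ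

theorem CharFormOf.heckeProdOf_apply (hD : D.IsRatPosOf) (A : CharFormOf Γ k χ) (z : ℍ) :
    A.heckeProdOf hD z = ∏ i, ((A : ℍ → ℂ) ∣[k] D.rep i) z := by
  show (∏ i, (A : ℍ → ℂ) ∣[k] D.rep i) z = _
  rw [Finset.prod_apply]

/-- The translate `A ∣[k] g` as a holomorphic function. -/
def CharFormOf.slashHol (A : CharFormOf Γ k χ) (g : GL (Fin 2) ℝ) : HolH :=
  ⟨(A : ℍ → ℂ) ∣[k] g, A.holo.slash k g⟩

@[simp] theorem CharFormOf.coe_slashHol (A : CharFormOf Γ k χ) (g : GL (Fin 2) ℝ) :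
    (A.slashHol g : ℍ → ℂ) = (A : ℍ → ℂ) ∣[k] g := rfl

theorem CharFormOf.slashHol_ne_zero {A : CharFormOf Γ k χ} (hA : A.mer ≠ 0) (g : GL (Fin 2) ℝ) :
    A.slashHol g ≠ 0 := by
  intro h
  have h1 : (A : ℍ → ℂ) ∣[k] g = 0 := congrArg (fun f : HolH => (f : ℍ → ℂ)) h
  rw [SlashAction.slash_eq_zero_iff] at h1
  exact hA ((A.mer_eq_zero_iff).mpr fun z => congrFun h1 z)

theorem CharFormOf.hol_heckeProdOf (hD : D.IsRatPosOf) (A : CharFormOf Γ k χ) :
    (A.heckeProdOf hD).hol = ∏ i, A.slashHol (D.rep i) := by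
  apply Subtype.ext
  have h := map_prod HolH.subtype (fun i => A.slashHol (D.rep i)) Finset.univ
  exact h.symm

theorem CharFormOf.mer_heckeProdOf (hD : D.IsRatPosOf) (A : CharFormOf Γ k χ) :
    (A.heckeProdOf hD).mer = ∏ i, algebraMap HolH MerH (A.slashHol (D.rep i)) := by
  rw [CharFormOf.mer, CharFormOf.hol_heckeProdOf, map_prod]

theorem CharFormOf.mer_heckeProdOf_ne_zero (hD : D.IsRatPosOf) {A : CharFormOf Γ k χ} (hA : A.mer ≠ 0) :
    (A.heckeProdOf hD).mer ≠ 0 := by
  rw [CharFormOf.mer_heckeProdOf, Finset.prod_ne_zero_iff]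
  intro i _
  exact (map_ne_zero_iff _ (IsFractionRing.injective HolH MerH)).mpr (A.slashHol_ne_zero hA _)

/-- Composition with `g` and the slash action by `g` differ by a factor depending only on the
weight: cross-multiplied form. -/
theorem CharFormOf.merComp_mer_mul_slashHol {g : GL (Fin 2) ℝ} (hg : 0 < g.det.val)
    (A : CharFormOf Γ k χ) (B : CharFormOf Γ k χ') :
    merComp g A.mer * algebraMap HolH MerH (B.slashHol g) =
      merComp g B.mer * algebraMap HolH MerH (A.slashHol g) := by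
  rw [CharFormOf.mer, CharFormOf.mer, merComp_algebraMap, merComp_algebraMap, ← map_mul, ← map_mul]
  congr 1
  ext z
  show (holComp g A.hol : ℍ → ℂ) z * ((B : ℍ → ℂ) ∣[k] g) z =
    (holComp g B.hol : ℍ → ℂ) z * ((A : ℍ → ℂ) ∣[k] g) z
  rw [coe_holComp hg, coe_holComp hg, ModularForm.slash_apply, ModularForm.slash_apply,
    UpperHalfPlane.σ, if_pos hg]
  simp only [CharFormOf.coe_hol, ContinuousAlgEquiv.refl_apply]
  ring

theorem CharFormOf.merComp_mer_div {g : GL (Fin 2) ℝ} (hg : 0 < g.det.val)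
    (A : CharFormOf Γ k χ) {B : CharFormOf Γ k χ'} (hB : B.mer ≠ 0) :
    merComp g (A.mer / B.mer) =
      algebraMap HolH MerH (A.slashHol g) / algebraMap HolH MerH (B.slashHol g) := by
  have hB' : algebraMap HolH MerH (B.slashHol g) ≠ 0 :=
    (map_ne_zero_iff _ (IsFractionRing.injective HolH MerH)).mpr (B.slashHol_ne_zero hB g)
  rw [map_div₀, div_eq_div_iff (merComp_ne_zero g hB) hB']
  exact (CharFormOf.merComp_mer_mul_slashHol hg A B).trans (mul_comm _ _)

/-! ### The Hecke product on meromorphic functions -/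

variable (D)

/-- **The Hecke product** `G ↦ ∏ i, G ∘ δ_i` on meromorphic functions. -/
def heckeProdMerOf : MerH →* MerH where
  toFun G := ∏ i, merComp (D.rep i) G
  map_one' := by simp
  map_mul' G G' := by simp [Finset.prod_mul_distrib]

theorem heckeProdMerOf_apply (G : MerH) : heckeProdMerOf D G = ∏ i, merComp (D.rep i) G := rfl

theorem heckeProdMerOf_pow (G : MerH) (m : ℕ) : heckeProdMerOf D (G ^ m) = heckeProdMerOf D G ^ m :=
  map_pow _ G m

theorem heckeProdMerOf_ne_zero {G : MerH} (hG : G ≠ 0) : heckeProdMerOf D G ≠ 0 := by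
  rw [heckeProdMerOf_apply, Finset.prod_ne_zero_iff]
  exact fun i _ => merComp_ne_zero _ hG

theorem heckeProdMerOf_zero [Nonempty ι] : heckeProdMerOf D 0 = 0 := by
  rw [heckeProdMerOf_apply]
  exact Finset.prod_eq_zero (Finset.mem_univ (Classical.arbitrary ι)) (map_zero _)

theorem heckeProdMerOf_inv (G : MerH) : heckeProdMerOf D G⁻¹ = (heckeProdMerOf D G)⁻¹ := by
  rw [heckeProdMerOf_apply, heckeProdMerOf_apply, ← Finset.prod_inv_distrib]
  exact Finset.prod_congr rfl fun i _ => map_inv₀ _ G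

theorem heckeProdMerOf_div (G G' : MerH) :
    heckeProdMerOf D (G / G') = heckeProdMerOf D G / heckeProdMerOf D G' := by
  rw [div_eq_mul_inv, map_mul, heckeProdMerOf_inv, div_eq_mul_inv]

theorem heckeProdMerOf_constMer (c : ℂ) :
    heckeProdMerOf D (constMer c) = constMer (c ^ (Finset.univ : Finset ι).card) := by
  rw [heckeProdMerOf_apply]
  simp only [merComp_constMer]
  rw [Finset.prod_const, map_pow]

variable {D}

/-- `H (A / B) = heckeProdOf A / heckeProdOf B` for two forms of the same weight. -/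
theorem heckeProdMerOf_mer_div (hD : D.IsRatPosOf) (A : CharFormOf Γ k χ) {B : CharFormOf Γ k χ'}
    (hB : B.mer ≠ 0) :
    heckeProdMerOf D (A.mer / B.mer) = (A.heckeProdOf hD).mer / (B.heckeProdOf hD).mer := by
  rw [heckeProdMerOf_apply, CharFormOf.mer_heckeProdOf, CharFormOf.mer_heckeProdOf,
    ← Finset.prod_div_distrib]
  exact Finset.prod_congr rfl fun i _ => CharFormOf.merComp_mer_div (hD.pos i) A hB

/-! ### The transfer of a character of finite order -/

theorem transferMulOf_pow_apply (D : CosetReps (embOf Γ) ι) (χ : ↥Γ →* ℂˣ) (m : ℕ)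
    (γ : ↥Γ) : D.transferMul (χ ^ m) γ = (D.transferMul χ γ) ^ m := by
  rw [CosetReps.transferMul_apply, CosetReps.transferMul_apply, ← Finset.prod_pow]
  rfl

theorem transferMulOf_one_apply (D : CosetReps (embOf Γ) ι) (γ : ↥Γ) :
    D.transferMul (1 : ↥Γ →* ℂˣ) γ = 1 := by
  rw [CosetReps.transferMul_apply]
  exact Finset.prod_eq_one fun i _ => rfl

theorem transferMulOf_inv_apply (D : CosetReps (embOf Γ) ι) (χ : ↥Γ →* ℂˣ)
    (γ : ↥Γ) : D.transferMul χ⁻¹ γ = (D.transferMul χ γ)⁻¹ := by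
  rw [CosetReps.transferMul_apply, CosetReps.transferMul_apply, ← Finset.prod_inv_distrib]
  rfl

theorem isOfFinOrder_transferMulOf (D : CosetReps (embOf Γ) ι) {χ : ↥Γ →* ℂˣ}
    (hχ : IsOfFinOrder χ) : IsOfFinOrder (D.transferMul χ) := by
  obtain ⟨m, hm, hχm⟩ := isOfFinOrder_iff_pow_eq_one.mp hχ
  refine isOfFinOrder_iff_pow_eq_one.mpr ⟨m, hm, ?_⟩
  ext γ
  rw [MonoidHom.pow_apply, ← transferMulOf_pow_apply, hχm, transferMulOf_one_apply]
  rfl

/-- **`H` preserves admissibility**: the Hecke product of a quotient of two forms of the same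
weight with characters of finite order is again such a quotient. -/
theorem IsCharRatioOf.heckeProdMerOf (hD : D.IsRatPosOf) {G : MerH} (hG : IsCharRatioOf Γ G) :
    IsCharRatioOf Γ (heckeProdMerOf D G) := by
  obtain ⟨k, χ, χ', A, B, hχ, hχ', hB, e⟩ := hG
  have hG' : G = A.mer / B.mer := by rw [← e, mul_div_cancel_right₀ _ hB]
  rw [hG', heckeProdMerOf_mer_div hD A hB]
  exact CharFormOf.isCharRatioOf_div (isOfFinOrder_transferMulOf D hχ) (isOfFinOrder_transferMulOf D hχ')
    _ _ (CharFormOf.mer_heckeProdOf_ne_zero hD hB)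

/-! ### The character of the Hecke product -/

/-- **The character of the Hecke product, right action form**: if `G ∘ γ = χ γ • G` for all
`γ ∈ Γ₀(N)` then `H G ∘ γ = transferMul χ γ • H G`. -/
theorem merComp_heckeProdMerOf (hD : D.IsRatPosOf) (χ : ↥Γ →* ℂˣ) {G : MerH}
    (hG : ∀ γ : ↥Γ, merComp (embOf Γ γ) G = constMer ((χ γ : ℂˣ) : ℂ) * G)
    (γ : ↥Γ) :
    merComp (embOf Γ γ) (heckeProdMerOf D G) =
      constMer ((D.transferMul χ γ : ℂˣ) : ℂ) * heckeProdMerOf D G := by
  have hγ : ∀ γ' : ↥Γ, 0 < (embOf Γ γ').det.val := fun γ' => det_mapGL_pos _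
  rw [heckeProdMerOf_apply, map_prod]
  have h1 : ∀ i, merComp (embOf Γ γ) (merComp (D.rep i) G) =
      constMer ((χ (D.coc γ i) : ℂˣ) : ℂ) * merComp (D.rep (D.next γ i)) G := by
    intro i
    rw [← merComp_mul_apply (hD.pos i) (hγ γ), D.rel γ i,
      merComp_mul_apply (hγ _) (hD.pos _), hG, map_mul, merComp_constMer]
  simp_rw [h1]
  rw [Finset.prod_mul_distrib, CosetReps.transferMul_apply, Units.coe_prod, map_prod]
  congr 1
  exact Equiv.prod_comp (D.nextEquiv γ) (fun i => merComp (D.rep i) G)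

/-- **The character of the Hecke product, left action form** (`γ • G := G ∘ γ⁻¹`): if
`γ • G = χ γ • G` for all `γ ∈ Γ₀(N)` then `γ • H G = transferMul χ γ • H G`. -/
theorem merComp_inv_heckeProdMerOf (hD : D.IsRatPosOf) (χ : ↥Γ →* ℂˣ) {G : MerH}
    (hG : ∀ γ : ↥Γ, merComp (embOf Γ γ⁻¹) G = constMer ((χ γ : ℂˣ) : ℂ) * G)
    (γ : ↥Γ) :
    merComp (embOf Γ γ⁻¹) (heckeProdMerOf D G) =
      constMer ((D.transferMul χ γ : ℂˣ) : ℂ) * heckeProdMerOf D G := by
  have hG' : ∀ γ' : ↥Γ,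
      merComp (embOf Γ γ') G = constMer (((χ⁻¹) γ' : ℂˣ) : ℂ) * G := by
    intro γ'
    have h := hG γ'⁻¹
    rw [inv_inv] at h
    rw [h, MonoidHom.inv_apply, ← map_inv]
  have h := merComp_heckeProdMerOf hD χ⁻¹ hG' γ⁻¹
  rw [h, transferMulOf_inv_apply, ← map_inv, inv_inv]



end Fermat.Agent.DS.Kum
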