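import Fermat.Agent.DS.Kum.An.KappaHeckeOf

/-!
# PROGRAMME III (S48), block X1-KUM, leaf KUM-4 (helper9): the Kummer maps into a specialisation,
generic assembly (twin of `Jac/KummerMapsOfSpec.lean`)

`Γ ≤ SL(2,ℤ)`, `F / ℂ` a function field with Kummer data `kummerDataOf R hD4` and a Riemann
package, `red : Pic0 ℂ F →+ J` a homomorphism which is injective on torsion (the specialisation
`ℂ → ℚ̄` of helper5's `SpecializationStatementOne`), a family of operators `T i` on the lattice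
`LamOf Γ`, `Tb i` on `Pic0 ℂ F`, `S i` on `J` with

* `κ (T i l) = Tb i (κ l)` for the Kummer homomorphisms `κ = kappaLamOf …` (from
  `kappaLamOf_of_eq_transfer`),
* `red (Tb i x) = S i (red x)`.

Then for every `m > 0` there is `ρ : LamOf Γ →+ J` with kernel `m • LamOf Γ` and
`ρ (T i l) = S i (ρ l)` — helper4's kernel `KKum` of the X1-OUT skeleton.
-/

set_option autoImplicit false
set_option linter.unusedSectionVars false

open UpperHalfPlane AlgebraicCurve

open scoped MatrixGroups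

noncomputable section

namespace Fermat.Agent.DS.Kum

open Fermat.Agent.Jac Fermat.Agent.Red
open Fermat.Agent.X0 (HolH MerH)

variable {Γ : Subgroup SL(2, ℤ)} {F : Type*} [Field F] [Algebra ℂ F] [HasPrincipalDivisors ℂ F]

/-- **The Kummer maps into a specialisation.** -/
theorem exists_kummerMap_of_spec (R : ThetaData Γ F) (hD4 : HD4Of Γ R.θ)
    (hF : RiemannPkg ℂ F) {J : Type*} [AddCommGroup J] (red : Pic0 ℂ F →+ J)
    (hred : ∀ x : Pic0 ℂ F, (∃ m : ℕ, m ≠ 0 ∧ m • x = 0) → red x = 0 → x = 0)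
    {I : Type*} (T : I → Module.End ℤ ↥(LamOf Γ)) (S : I → Module.End ℤ J)
    (Tb : I → (Pic0 ℂ F →+ Pic0 ℂ F))
    (hκ : ∀ (i : I) {m : ℕ} (hm : 0 < m) {ζ : ℂˣ} (hζ : IsPrimitiveRoot ζ m) (l : ↥(LamOf Γ)),
      kappaLamOf (kummerDataOf R hD4) (kummerDataOf_Good R hD4) hm hζ (T i l) =
        Tb i (kappaLamOf (kummerDataOf R hD4) (kummerDataOf_Good R hD4) hm hζ l))
    (hS : ∀ (i : I) (x : Pic0 ℂ F), red (Tb i x) = S i (red x)) (m : ℕ) (hm : 0 < m) :
    ∃ ρ : ↥(LamOf Γ) →+ J, (∀ x, ρ x = 0 ↔ ∃ y : ↥(LamOf Γ), x = m • y) ∧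
      ∀ (i : I) (x : ↥(LamOf Γ)), ρ (T i x) = S i (ρ x) := by
  obtain ⟨ζ, hζ⟩ := exists_primitiveRoot_unitsC hm
  set κ := kappaLamOf (kummerDataOf R hD4) (kummerDataOf_Good R hD4) hm hζ with hκdef
  refine ⟨red.comp κ, fun x => ?_, fun i x => ?_⟩
  · rw [AddMonoidHom.comp_apply]
    constructor
    · intro h
      have h0 : κ x = 0 :=
        hred _ ⟨m, hm.ne', nsmul_kappaLamOf (kummerDataOf R hD4) (kummerDataOf_Good R hD4) hm hζ x⟩
          h
      exact (kappaLamOf_eq_zero_iff (kummerDataOf R hD4) (kummerDataOf_Good R hD4) hF hm hζ x).mp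
        h0
    · intro h
      rw [(kappaLamOf_eq_zero_iff (kummerDataOf R hD4) (kummerDataOf_Good R hD4) hF hm hζ x).mpr
        h, map_zero]
  · rw [AddMonoidHom.comp_apply, AddMonoidHom.comp_apply, hκdef, hκ i hm hζ x, hS]

end Fermat.Agent.DS.Kum
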