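import Fermat.Agent.DS.Kum.An.KummerOf
import Fermat.Agent.DS.Kum.An.HeckeProdOf
import Fermat.Agent.Jac.KappaHecke

/-!
# PROGRAMME III (S48), block X1-KUM, leaf KUM-2e (helper9): Hecke equivariance of the Kummer
homomorphism of ANY `Γ ≤ SL(2,ℤ)` over `ℂ`

The `Γ`-generic port of `Jac/KappaHecke.lean`.  Inputs: a realisation `R : ThetaData Γ F`, the
divisibility hypothesis `hD4 : HD4Of Γ R.θ`, a coset system `D : CosetReps (embOf Γ) ι` (rational,
positive determinants), an *algebraic correspondence* `(T, Nm)` on `F` (`T (div y) = div (Nm y)`)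
and the hypothesis `HThetaOf R Nm D` : the Hecke product of `θ y` over `D` is `θ (Nm y)`.

* `heckeDataOf` : the `KummerData.HeckeData` of `(D, T, Nm)`;
* `kappa_transferMulOf` : `Tb (kappa m χ) = kappa m (transferMul χ)` for every endomorphism `Tb` of
  `Pic0 ℂ F` induced by `T`;
* `transferMul_charOf'`, `kappaLamOf_transferLam`, `kappaLamOf_of_eq_transfer` : **the lattice
  form** `kappaLamOf (transferLam D l) = Tb (kappaLamOf l)`.

The diamond operators `φ ↦ φ ∘ a` (`a` the automorphism of `Γ` induced by a normalising matrix `w`)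
are transfers too: the coset system with the single representative `w` (`An/RepsOne.lean`).
-/

set_option autoImplicit false
set_option linter.unusedSectionVars false

open UpperHalfPlane ModularForm CongruenceSubgroup Matrix.SpecialLinearGroup AlgebraicCurve

open scoped MatrixGroups Manifold

noncomputable section

namespace Fermat.Agent.DS.Kum

open Fermat.Agent.Jac Fermat.Agent.Red
open Fermat.Agent.X0 (HolH MerH)

variable {Γ : Subgroup SL(2, ℤ)}

theorem subgroup_smul_eq_merCompOf (γ : ↥Γ) (G : MerH) :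
    γ • G = merComp (embOf Γ γ⁻¹) G := by
  rw [subgroup_smul_mer, KH.smul_eq_merComp]
  rfl

section HeckeData

variable {F : Type*} [Field F] [Algebra ℂ F] [HasPrincipalDivisors ℂ F]
  {ι : Type*} [Fintype ι]

/-- The hypothesis (J4-alg): the Hecke product of `θ y` over the coset system `D` is `θ` of the
"norm" `Nm y`. -/
def HThetaOf (R : ThetaData Γ F) (Nm : F → F) (D : CosetReps (embOf Γ) ι) : Prop :=
  ∀ y : F, y ≠ 0 → heckeProdMerOf D (R.θ y) = R.θ (Nm y)

/-- **The Hecke data** attached to a coset system `D` (rational, positive determinants) whose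
Hecke product realises the algebraic correspondence `(T, Nm)`. -/
def heckeDataOf (R : ThetaData Γ F) (hD4 : HD4Of Γ R.θ) {D : CosetReps (embOf Γ) ι}
    (hD : D.IsRatPosOf) (T : Divisor ℂ F →+ Divisor ℂ F) (Nm : F → F)
    (hT : ∀ y : F, y ≠ 0 → T (divOf ℂ y) = divOf ℂ (Nm y)) (hH : HThetaOf R Nm D) :
    (kummerDataOf R hD4).HeckeData where
  T := T
  Nm := Nm
  T_divOf := hT
  H := heckeProdMerOf D
  H_pow G m := heckeProdMerOf_pow D G m
  H_θ y hy := hH y hy
  τ := D.transferMul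
  isMF := by
    rintro χ G - ⟨hG0, hGa, hGχ⟩
    refine ⟨heckeProdMerOf_ne_zero D hG0, IsCharRatioOf.heckeProdMerOf hD hGa, fun γ => ?_⟩
    rw [subgroup_smul_eq_merCompOf, algebraMap_mer]
    refine merComp_inv_heckeProdMerOf hD χ (fun γ' => ?_) γ
    rw [← subgroup_smul_eq_merCompOf, ← algebraMap_mer]
    exact hGχ γ'

/-- **Hecke equivariance of the Kummer class over `ℂ`** (character form):
`Tb (kappa m χ) = kappa m (transferMul χ)`. -/
theorem kappa_transferMulOf (R : ThetaData Γ F) (hD4 : HD4Of Γ R.θ) {D : CosetReps (embOf Γ) ι}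
    (hD : D.IsRatPosOf) (T : Divisor ℂ F →+ Divisor ℂ F) (Nm : F → F)
    (hT : ∀ y : F, y ≠ 0 → T (divOf ℂ y) = divOf ℂ (Nm y)) (hH : HThetaOf R Nm D)
    (Tb : Pic0 ℂ F →+ Pic0 ℂ F)
    (hTb : ∀ E : Divisor.degZero (K := ℂ) (F := F), ∃ h, Tb (Pic0.mk E) = Pic0.mk ⟨T E, h⟩)
    {m : ℕ} (hm : 0 < m) {χ : ↥Γ →* ℂˣ} (hχ : χ ∈ goodChar Γ) (hχm : χ ^ m = 1) :
    Tb ((kummerDataOf R hD4).kappa m χ) = (kummerDataOf R hD4).kappa m (D.transferMul χ) :=
  KummerData.kappa_hecke_pic0 (heckeDataOf R hD4 hD T Nm hT hH) hm hχ hχm Tb hTb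

/-- The transfer of the character of `l` is the character of the transfer of `l`. -/
theorem transferMul_charOf' (D : CosetReps (embOf Γ) ι) (ζ : ℂˣ) (l : Additive ↥Γ →+ ℤ) :
    D.transferMul (charOf ζ l) = charOf ζ (D.transfer l) := by
  ext γ
  have h := D.transferMul_eq_of_eq_comp (zpowersHom ℂˣ ζ) l (charOf ζ l)
    (fun γ' => by rw [zpowersHom_apply, toAdd_ofAdd]; rfl) γ
  rw [h, zpowersHom_apply, toAdd_ofAdd]
  rfl

/-- **Hecke equivariance of the Kummer homomorphism, lattice form**: for a coset system `D` whose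
Hecke product realises the algebraic correspondence `(T, Nm)`, and `Tb` the endomorphism of
`Pic0 ℂ F` induced by `T`, `κ (transferLam D l) = Tb (κ l)`. -/
theorem kappaLamOf_transferLam (R : ThetaData Γ F) (hD4 : HD4Of Γ R.θ)
    {D : CosetReps (embOf Γ) ι} (hD : D.IsRatPosOf) (T : Divisor ℂ F →+ Divisor ℂ F) (Nm : F → F)
    (hT : ∀ y : F, y ≠ 0 → T (divOf ℂ y) = divOf ℂ (Nm y)) (hH : HThetaOf R Nm D)
    (Tb : Pic0 ℂ F →+ Pic0 ℂ F)
    (hTb : ∀ E : Divisor.degZero (K := ℂ) (F := F), ∃ h, Tb (Pic0.mk E) = Pic0.mk ⟨T E, h⟩)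
    {m : ℕ} (hm : 0 < m) {ζ : ℂˣ} (hζ : IsPrimitiveRoot ζ m) (l : ↥(LamOf Γ)) :
    kappaLamOf (kummerDataOf R hD4) (kummerDataOf_Good R hD4) hm hζ (transferLam D l) =
      Tb (kappaLamOf (kummerDataOf R hD4) (kummerDataOf_Good R hD4) hm hζ l) := by
  rw [kappaLamOf_apply, kappaLamOf_apply, coe_transferLam_apply, ← transferMul_charOf',
    kappa_transferMulOf R hD4 hD T Nm hT hH Tb hTb hm
      (charOf_mem_goodChar hm hζ.pow_eq_one l.2) (charOf_pow_eq_one hζ.pow_eq_one _)]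

/-- The same with the lattice operator given by any `l'` with `l' = D.transfer l`. -/
theorem kappaLamOf_of_eq_transfer (R : ThetaData Γ F) (hD4 : HD4Of Γ R.θ)
    {D : CosetReps (embOf Γ) ι} (hD : D.IsRatPosOf) (T : Divisor ℂ F →+ Divisor ℂ F) (Nm : F → F)
    (hT : ∀ y : F, y ≠ 0 → T (divOf ℂ y) = divOf ℂ (Nm y)) (hH : HThetaOf R Nm D)
    (Tb : Pic0 ℂ F →+ Pic0 ℂ F)
    (hTb : ∀ E : Divisor.degZero (K := ℂ) (F := F), ∃ h, Tb (Pic0.mk E) = Pic0.mk ⟨T E, h⟩)
    {m : ℕ} (hm : 0 < m) {ζ : ℂˣ} (hζ : IsPrimitiveRoot ζ m) (l l' : ↥(LamOf Γ))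
    (h : (l' : Additive ↥Γ →+ ℤ) = D.transfer (l : Additive ↥Γ →+ ℤ)) :
    kappaLamOf (kummerDataOf R hD4) (kummerDataOf_Good R hD4) hm hζ l' =
      Tb (kappaLamOf (kummerDataOf R hD4) (kummerDataOf_Good R hD4) hm hζ l) := by
  have hl : l' = transferLam D l := Subtype.ext (by rw [h, coe_transferLam_apply])
  rw [hl]
  exact kappaLamOf_transferLam R hD4 hD T Nm hT hH Tb hTb hm hζ l

end HeckeData

end Fermat.Agent.DS.Kum
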