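import Fermat.Agent.DS.Kum.C.AlgebraicityCharOf
import Fermat.Agent.Jac.MerAction

/-!
# PROGRAMME III (S48), block X1-KUM, leaf KUM-2b (helper9): the action of `Γ` on quotients of forms
with character, existence of multiplicative functions — ANY `Γ ≤ SL(2,ℤ)`

On helper25's `DS/Kum/C/CharFormOf.lean` (structure `CharFormOf Γ k χ`) and helper28's
`DS/Kum/C/AlgebraicityCharOf.lean` (`hol`, `mer`, `IsCharRatioOf`), vendored byte-identically.
The `Γ`-generic port of the `CharForm` half of `Jac/MerAction.lean` and of `exists_isMF_eis`,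
`CharForm.char_eq_of_smul_mer_div` (`Jac/KummerC.lean`).

* `CharFormOf.smul_mer`, `CharFormOf.smul_mer_div` : `γ • (A / B) = (χ / χ')(γ⁻¹) (A / B)`;
* `CharFormOf.char_eq_of_smul_mer_div`, `CharFormOf.char_eq_of_smul_mer_div_eq`;
* `exists_isMF_eisOf` : the quotient `E_{4,χ⁻¹} / E_{4,1}` is a multiplicative function with
  character `χ` (the `exists_mf` field of `KummerData`).
-/

set_option autoImplicit false
set_option linter.unusedSectionVars false

open UpperHalfPlane EisensteinSeries Matrix ModularForm CongruenceSubgroup Filter Topology Complex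
  Set Matrix.SpecialLinearGroup

open scoped MatrixGroups Manifold

noncomputable section

namespace Fermat.Agent.DS.Kum

open Fermat.Agent.Jac
open Fermat.Agent.X0 (HolH MerH)

variable {Γ : Subgroup SL(2, ℤ)}

/-! ### The action of `Γ` on quotients of forms with character -/

namespace CharFormOf

variable {k : ℤ} {χ χ' : ↥Γ →* ℂˣ}

/-- The transformation law of a form with character, in the ring of holomorphic functions, for
weight `k = n - m` written as a difference of natural numbers. -/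
theorem smul_hol_mul (A : CharFormOf Γ k χ) (γ : ↥Γ) {n m : ℕ} (hk : k = (n : ℤ) - m) :
    ((γ : SL(2, ℤ)) • A.hol) * denomHol ((γ⁻¹ : ↥Γ) : SL(2, ℤ)) ^ m =
      constHol ((χ γ⁻¹ : ℂˣ) : ℂ) * denomHol ((γ⁻¹ : ↥Γ) : SL(2, ℤ)) ^ n * A.hol := by
  refine holOf_ext fun z => ?_
  have h := A.smul_apply γ⁻¹ z
  have e1 : (((γ : SL(2, ℤ)) • A.hol : HolH) : ℍ → ℂ) z =
      A (((γ⁻¹ : ↥Γ) : SL(2, ℤ)) • z) := by
    rw [smul_hol_apply, Subgroup.coe_inv]
    rfl
  set δ : SL(2, ℤ) := ((γ⁻¹ : ↥Γ) : SL(2, ℤ)) with hδ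
  show (((γ : SL(2, ℤ)) • A.hol : HolH) : ℍ → ℂ) z * (denomHol δ : ℍ → ℂ) z ^ m =
    ((χ γ⁻¹ : ℂˣ) : ℂ) * (denomHol δ : ℍ → ℂ) z ^ n * A z
  have hzk : denom δ z ^ k = denom δ z ^ n / denom δ z ^ m := by
    rw [hk, zpow_sub₀ (denom_ne_zero _ z), zpow_natCast, zpow_natCast]
  rw [e1, h, coe_denomHol, hzk]
  have hd : denom δ z ^ m ≠ 0 := pow_ne_zero m (denom_ne_zero _ z)
  field_simp

/-- The transformation law of a form with character in the field of meromorphic functions. -/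
theorem smul_mer (A : CharFormOf Γ k χ) (γ : ↥Γ) :
    (γ : SL(2, ℤ)) • A.mer =
      constMer ((χ γ⁻¹ : ℂˣ) : ℂ) * denomMer ((γ⁻¹ : ↥Γ) : SL(2, ℤ)) ^ k * A.mer := by
  obtain ⟨n, m, hk⟩ : ∃ n m : ℕ, k = (n : ℤ) - m := ⟨k.toNat, (-k).toNat, by omega⟩
  have h := congrArg (algebraMap HolH MerH) (A.smul_hol_mul γ hk)
  rw [map_mul, map_mul, map_mul, map_pow, map_pow, ← smul_algebraMap_hol] at h
  have hd := denomMer_ne_zero ((γ⁻¹ : ↥Γ) : SL(2, ℤ))
  subst hk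
  rw [zpow_sub₀ hd, zpow_natCast, zpow_natCast, mul_div_assoc', div_mul_eq_mul_div,
    eq_div_iff (pow_ne_zero m hd)]
  exact h

/-- A quotient of two forms of the same weight with characters `χ`, `χ'` is a multiplicative
function: `γ • (A / B) = (χ / χ')(γ⁻¹) (A / B)`. -/
theorem smul_mer_div (A : CharFormOf Γ k χ) (B : CharFormOf Γ k χ') (γ : ↥Γ) :
    (γ : SL(2, ℤ)) • (A.mer / B.mer) =
      constMer (((χ γ⁻¹ : ℂˣ) : ℂ) / ((χ' γ⁻¹ : ℂˣ) : ℂ)) * (A.mer / B.mer) := by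
  have hd := denomMer_ne_zero ((γ⁻¹ : ↥Γ) : SL(2, ℤ))
  rw [smul_div₀', smul_mer, smul_mer, map_div₀]
  have hz : denomMer ((γ⁻¹ : ↥Γ) : SL(2, ℤ)) ^ k ≠ 0 := zpow_ne_zero k hd
  by_cases hB : B.mer = 0
  · rw [hB, mul_zero, div_zero, div_zero, mul_zero]
  have hc : constMer ((χ' γ⁻¹ : ℂˣ) : ℂ) ≠ 0 := by
    rw [Ne, map_eq_zero]
    exact Units.ne_zero _
  field_simp

/-- If a nonzero quotient `A / B` is a multiplicative function with character `χ` then
`χ = χb / χa`. -/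
theorem char_eq_of_smul_mer_div {χa χb χ : ↥Γ →* ℂˣ}
    (A : CharFormOf Γ k χa) (B : CharFormOf Γ k χb) (h0 : A.mer / B.mer ≠ 0)
    (h : ∀ γ : ↥Γ,
      γ • (A.mer / B.mer) = algebraMap ℂ MerH ((χ γ : ℂˣ) : ℂ) * (A.mer / B.mer)) :
    χ = χb / χa := by
  ext γ
  have h1 := h γ
  rw [subgroup_smul_mer, CharFormOf.smul_mer_div, algebraMap_mer] at h1
  have h2 := constMer.injective (mul_right_cancel₀ h0 h1)
  rw [MonoidHom.div_apply, Units.val_div_eq_div_val, ← h2, map_inv, map_inv,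
    Units.val_inv_eq_inv_val, Units.val_inv_eq_inv_val, inv_div_inv]

/-- An invariant nonzero quotient of two forms of the same weight: the characters agree. -/
theorem char_eq_of_smul_mer_div_eq {χa χb : ↥Γ →* ℂˣ}
    (A : CharFormOf Γ k χa) (B : CharFormOf Γ k χb) (h0 : A.mer / B.mer ≠ 0)
    (h : ∀ γ : ↥Γ, γ • (A.mer / B.mer) = A.mer / B.mer) : χa = χb := by
  have h1 : (1 : ↥Γ →* ℂˣ) = χb / χa := by
    refine char_eq_of_smul_mer_div A B h0 fun γ => ?_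
    rw [h γ, MonoidHom.one_apply, Units.val_one, map_one, one_mul]
  ext γ
  have h2 := DFunLike.congr_fun h1 γ
  rw [MonoidHom.one_apply, MonoidHom.div_apply, eq_comm, div_eq_one] at h2
  rw [h2]

end CharFormOf

/-! ### Existence of multiplicative functions -/

/-- **Existence of multiplicative functions** (from the Eisenstein series with character). -/
theorem exists_isMF_eisOf {χ : ↥Γ →* ℂˣ} (hunit : ∀ γ, ‖((χ γ : ℂˣ) : ℂ)‖ = 1)
    (hpar : ∀ γ : ↥Γ, (γ : SL(2, ℤ)) 1 0 = 0 → χ γ = 1) (hfin : IsOfFinOrder χ) :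
    ∃ G : MerH, G ≠ 0 ∧ IsCharRatioOf Γ G ∧
      ∀ γ : ↥Γ, γ • G = algebraMap ℂ MerH ((χ γ : ℂˣ) : ℂ) * G := by
  have hunit' : ∀ γ, ‖(((χ⁻¹ : ↥Γ →* ℂˣ) γ : ℂˣ) : ℂ)‖ = 1 := by
    intro γ
    rw [MonoidHom.inv_apply, Units.val_inv_eq_inv_val, norm_inv, hunit, inv_one]
  have hpar' : ∀ γ : ↥Γ, (γ : SL(2, ℤ)) 1 0 = 0 →
      (χ⁻¹ : ↥Γ →* ℂˣ) γ = 1 := by
    intro γ hγ
    rw [MonoidHom.inv_apply, hpar γ hγ, inv_one]
  have h4 : (3 : ℤ) ≤ 4 := by norm_num
  have h4e : Even (4 : ℤ) := ⟨2, by norm_num⟩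
  set A : CharFormOf Γ 4 χ⁻¹ := eisCharFormOf hunit' hpar' h4 with hA
  set B : CharFormOf Γ 4 (1 : ↥Γ →* ℂˣ) := eisOneFormOf Γ h4 with hB
  have hA0 : A.mer ≠ 0 :=
    (CharFormOf.mer_ne_zero_iff A).mpr (exists_eisCharFormOf_ne_zero hunit' hpar' h4 h4e)
  have hB0 : B.mer ≠ 0 :=
    (CharFormOf.mer_ne_zero_iff B).mpr
      (exists_eisCharFormOf_ne_zero norm_one_charOf_apply (fun _ _ => rfl) h4 h4e)
  refine ⟨A.mer / B.mer, div_ne_zero hA0 hB0,
    CharFormOf.isCharRatioOf_div hfin.inv IsOfFinOrder.one A B hB0, fun γ => ?_⟩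
  rw [subgroup_smul_mer, CharFormOf.smul_mer_div, algebraMap_mer]
  congr 2
  rw [MonoidHom.one_apply, Units.val_one, div_one, MonoidHom.inv_apply, map_inv, inv_inv]

end Fermat.Agent.DS.Kum
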